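import Fermat.Agent.PiatetskiShapiro.Phase
import Fermat.Agent.BombieriVinogradov.Main

/-!
# The sums `∑ Λ n e (t n ^ γ)`

For `5/6 ≤ γ < 1` and `1 ≤ t ≤ 7 N ^ (1 - γ + ε)` the sum over `(N, N']`, `N' ≤ 2 N`, is at most
`N ^ (11/12 + ε)` for large `N`, and so is the sum over the primes (Piatetski-Shapiro, 1953): the
identity of Vaughan with `U = N ^ (1/6)`; in the sums of type II the short variable is cut into
pieces of length `U` and Cauchy's inequality is applied in the long one.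
-/

set_option autoImplicit false

noncomputable section

namespace FA.PiatetskiShapiro

open Finset Filter
open FA.Subconvexity (expI norm_expI expI_add conj_expI)
open FA.ThreePrimes (lowPart highPart moebiusR oneR tailCoeff logOne one_le_logOne)
open scoped Classical ArithmeticFunction.vonMangoldt

/-- `e (t n ^ γ)`, without the `2 π`. -/
def wave (t γ : ℝ) (n : ℕ) : ℂ := expI (t * (n : ℝ) ^ γ)

theorem norm_wave (t γ : ℝ) (n : ℕ) : ‖wave t γ n‖ = 1 := norm_expI _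

/-- `γ (1 - γ)`. -/
def curv (γ : ℝ) : ℝ := γ * (1 - γ)

theorem curv_pos {γ : ℝ} (h0 : 0 < γ) (h1 : γ < 1) : 0 < curv γ := mul_pos h0 (by linarith)

theorem curv_le_one {γ : ℝ} (h0 : 0 < γ) (h1 : γ < 1) : curv γ ≤ 1 := by
  rw [curv]
  exact mul_le_one₀ h1.le (by linarith) (by linarith)

/-- The constant of the test. -/
def testConst (γ : ℝ) : ℝ := 300 + 130 / √(curv γ * γ)

theorem testConst_pos (γ : ℝ) : 0 < testConst γ :=
  add_pos_of_pos_of_nonneg (by norm_num) (by positivity)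

/-- The inner sum of type I. -/
theorem norm_inner_wave_le {γ t : ℝ} (hγ0 : 0 < γ) (hγ1 : γ < 1) (ht : 1 ≤ t) {N N' m c : ℕ}
    (hN : 0 < N) (hN' : N' ≤ 2 * N) (hm : 0 < m) (hmN : m ≤ N') (hc : c ≤ N' / m) :
    ‖∑ l ∈ Ioc (N / m) c, wave t γ (m * l)‖ ≤
      testConst γ * (√t * (N : ℝ) ^ (γ / 2) + (N : ℝ) ^ (1 - γ / 2) / m) := by
  have hN0 : (0 : ℝ) < N := Nat.cast_pos.2 hN
  have hm0 : (0 : ℝ) < m := Nat.cast_pos.2 hm
  have hm2 : (m : ℝ) ≤ 2 * N := by exact_mod_cast hmN.trans hN'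
  obtain ⟨D, hD⟩ : ∃ D, D = t * (m : ℝ) ^ γ := ⟨_, rfl⟩
  have hD0 : 0 < D := hD ▸ mul_pos (by linarith) (Real.rpow_pos_of_pos hm0 _)
  rw [show Ioc (N / m) c = Ico (N / m + 1) (c + 1) by ext; simp,
    sum_congr rfl fun l _ => show wave t γ (m * l) = expI (D * (l : ℝ) ^ γ) by
      rw [wave, hD, Nat.cast_mul, Real.mul_rpow hm0.le (Nat.cast_nonneg l), mul_assoc]]
  have hY : (N : ℝ) / m ≤ ((N / m + 1 : ℕ) : ℝ) := by
    rw [div_le_iff₀ hm0]
    exact_mod_cast (Nat.lt_succ_iff.1 (Nat.lt_succ_of_lt (Nat.lt_div_mul_add (a := N) hm))).trans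
      (le_of_eq (by ring))
  have hb : ((c + 1 : ℕ) : ℝ) ≤ 4 * ((N : ℝ) / m) := by
    have h1 : (c : ℝ) ≤ (N' : ℝ) / m := (Nat.cast_le.2 hc).trans Nat.cast_div_le
    have h2 : (N' : ℝ) / m ≤ 2 * N / m := div_le_div_of_nonneg_right (by exact_mod_cast hN') hm0.le
    have h3 : (1 : ℝ) ≤ 2 * N / m := by rw [le_div_iff₀ hm0]; linarith
    push_cast
    rw [mul_div_assoc'] at *
    linarith [show 4 * (N : ℝ) / m = 2 * N / m + 2 * N / m by ring]
  refine (norm_phase_sum_le (Y := (N : ℝ) / m) hγ0 hγ1 hD0.ne' (by positivity) hY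
    (hb.trans (by linarith [show 0 ≤ (N : ℝ) / m by positivity]))).trans ?_
  rw [abs_of_pos hD0]
  obtain ⟨w, hw⟩ : ∃ w, w = (N : ℝ) ^ (γ / 2 - 1) := ⟨_, rfl⟩
  have hw0 : 0 < w := hw ▸ Real.rpow_pos_of_pos hN0 _
  have hs : √(γ * (1 - γ) * D * (5 * ((N : ℝ) / m)) ^ (γ - 2)) =
      √(curv γ) * √t * (m : ℝ) * ((5 : ℝ) ^ (γ / 2 - 1) * w) := by
    have e : γ * (1 - γ) * D * (5 * ((N : ℝ) / m)) ^ (γ - 2) =
        curv γ * t * ((m : ℝ) * ((5 : ℝ) ^ (γ / 2 - 1) * w)) ^ 2 := by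
      rw [hD, curv, hw, Real.mul_rpow (by norm_num) (by positivity), Real.div_rpow hN0.le hm0.le,
        mul_pow, mul_pow, ← Real.rpow_natCast ((5 : ℝ) ^ (γ / 2 - 1)), ← Real.rpow_mul (by norm_num),
        ← Real.rpow_natCast ((N : ℝ) ^ (γ / 2 - 1)), ← Real.rpow_mul hN0.le]
      have e2 : (m : ℝ) ^ γ = (m : ℝ) ^ 2 * (m : ℝ) ^ (γ - 2) := by
        rw [← Real.rpow_natCast, ← Real.rpow_add hm0]
        norm_num
      rw [e2, show (γ / 2 - 1) * ((2 : ℕ) : ℝ) = γ - 2 by push_cast; ring]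
      have : (m : ℝ) ^ (γ - 2) ≠ 0 := (Real.rpow_pos_of_pos hm0 _).ne'
      field_simp
    rw [e, Real.sqrt_mul (mul_nonneg (curv_pos hγ0 hγ1).le (by linarith)),
      Real.sqrt_mul (curv_pos hγ0 hγ1).le, Real.sqrt_sq (by positivity)]
    ring
  rw [hs]
  have h5 : (5 : ℝ)⁻¹ ≤ (5 : ℝ) ^ (γ / 2 - 1) ∧ (5 : ℝ) ^ (γ / 2 - 1) ≤ 1 := by
    refine ⟨?_, Real.rpow_le_one_of_one_le_of_nonpos (by norm_num) (by linarith)⟩
    rw [← Real.rpow_neg_one]
    exact Real.rpow_le_rpow_of_exponent_le (by norm_num) (by linarith)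
  have hK : √(curv γ * γ) ≤ √(curv γ) :=
    Real.sqrt_le_sqrt (mul_le_of_le_one_right (curv_pos hγ0 hγ1).le hγ1.le)
  have hKpos : 0 < √(curv γ * γ) := Real.sqrt_pos.2 (mul_pos (curv_pos hγ0 hγ1) hγ0)
  have hk1 : √(curv γ) ≤ 1 := Real.sqrt_le_one.2 (curv_le_one hγ0 hγ1)
  have hst : 1 ≤ √t := Real.one_le_sqrt.2 ht
  have e1 : (N : ℝ) * w = (N : ℝ) ^ (γ / 2) := by
    rw [hw, ← Real.rpow_one_add' hN0.le (by linarith)]
    ring_nf
  have e2 : w⁻¹ = (N : ℝ) ^ (1 - γ / 2) := by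
    rw [hw, ← Real.rpow_neg hN0.le, neg_sub]
  rw [testConst, mul_add]
  have ht1 : 75 * (((c + 1 - (N / m + 1) : ℕ)) : ℝ) *
      (√(curv γ) * √t * (m : ℝ) * ((5 : ℝ) ^ (γ / 2 - 1) * w)) ≤
      300 * (√t * (N : ℝ) ^ (γ / 2)) := by
    have h1 : (((c + 1 - (N / m + 1) : ℕ)) : ℝ) ≤ 4 * ((N : ℝ) / m) :=
      (Nat.cast_le.2 (Nat.sub_le _ _)).trans hb
    refine (mul_le_mul (mul_le_mul_of_nonneg_left h1 (by norm_num))
      (mul_le_mul (mul_le_mul_of_nonneg_right (mul_le_mul_of_nonneg_right hk1 (Real.sqrt_nonneg t))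
        hm0.le) (mul_le_mul_of_nonneg_right h5.2 hw0.le) (by positivity) (by positivity))
      (by positivity) (by positivity)).trans (le_of_eq ?_)
    rw [← e1]
    field_simp
    ring
  have ht2 : 26 / (√(curv γ) * √t * (m : ℝ) * ((5 : ℝ) ^ (γ / 2 - 1) * w)) ≤
      130 / √(curv γ * γ) * ((N : ℝ) ^ (1 - γ / 2) / m) := by
    refine (div_le_div_of_nonneg_left (by norm_num) (by positivity) (mul_le_mul
      (mul_le_mul_of_nonneg_right (mul_le_mul hK hst zero_le_one (Real.sqrt_nonneg _)) hm0.le)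
      (mul_le_mul_of_nonneg_right h5.1 hw0.le) (by positivity) (by positivity))).trans (le_of_eq ?_)
    rw [← e2]
    field_simp
    norm_num
  refine (add_le_add ht1 ht2).trans ?_
  have : 0 ≤ 130 / √(curv γ * γ) * (√t * (N : ℝ) ^ (γ / 2)) := by positivity
  have : 0 ≤ 300 * ((N : ℝ) ^ (1 - γ / 2) / m) := by positivity
  linarith

/-- **Sums of type I.** -/
theorem norm_typeOne_wave_le {γ t : ℝ} (hγ0 : 0 < γ) (hγ1 : γ < 1) (ht : 1 ≤ t) {N N' K : ℕ}
    (hN : 0 < N) (hN' : N' ≤ 2 * N) (f g : ℕ → ℝ) {F W : ℝ} (hF : 0 ≤ F) (hW : 0 ≤ W)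
    (hf : ∀ s, s ≤ N' → |f s| ≤ F) (hf0 : ∀ s, K < s → f s = 0)
    (hg : ∀ l, 0 < l → l ≤ N' → |g l| ≤ W) (hmono : ∀ l, 0 < l → g l ≤ g (l + 1)) :
    ‖pairSum (wave t γ) N N' f g‖ ≤ 3 * W * F * testConst γ *
      ((K : ℝ) * (√t * (N : ℝ) ^ (γ / 2)) + (N : ℝ) ^ (1 - γ / 2) * logOne (2 * N)) := by
  rw [pairSum_eq]
  refine (norm_sum_le _ _).trans ((sum_le_sum (g := fun s : ℕ => if s ≤ K then
    3 * W * F * testConst γ * (√t * (N : ℝ) ^ (γ / 2) + (N : ℝ) ^ (1 - γ / 2) / s) else 0)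
    fun s hs => ?_).trans ?_)
  · rw [mem_Ioc] at hs
    split_ifs with hsK
    · rw [norm_mul, Complex.norm_real, Real.norm_eq_abs]
      have hab : N / s ≤ N' / s ∨ N' / s < N / s := le_or_gt _ _
      rcases hab with hab | hab
      · refine (mul_le_mul (hf s hs.2) (norm_sum_monotone_mul_le (w := g) (W := W) (N' / s)
          (testConst γ * (√t * (N : ℝ) ^ (γ / 2) + (N : ℝ) ^ (1 - γ / 2) / s)) hab hW
          (mul_nonneg (testConst_pos γ).le (by positivity)) (fun l hl => ?_) (Or.inl fun l hl _ => ?_)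
          (fun c _ hc => norm_inner_wave_le hγ0 hγ1 ht hN hN' hs.1 hs.2 hc))
          (norm_nonneg _) hF).trans (le_of_eq (by ring))
        · rw [mem_Ioc] at hl
          exact hg l (Nat.zero_lt_of_lt hl.1) (hl.2.trans (Nat.div_le_self _ _))
        · rw [mem_Ioc] at hl
          exact hmono l (Nat.zero_lt_of_lt hl.1)
      · rw [Ioc_eq_empty (by omega), sum_empty, norm_zero, mul_zero]
        have := testConst_pos γ
        positivity
    · rw [hf0 s (not_le.1 hsK), Complex.ofReal_zero, zero_mul, norm_zero]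
  · rw [← sum_filter, ← mul_sum]
    refine mul_le_mul_of_nonneg_left ?_ (by have := testConst_pos γ; positivity)
    rw [sum_add_distrib, sum_const, nsmul_eq_mul]
    refine add_le_add (mul_le_mul_of_nonneg_right (Nat.cast_le.2 ?_) (by positivity)) ?_
    · refine le_of_le_of_eq (card_le_card fun s hs => ?_) (Nat.card_Icc 1 K)
      rw [mem_filter, mem_Ioc] at hs
      exact mem_Icc.2 ⟨hs.1.1, hs.2⟩
    · simp only [div_eq_mul_inv]
      rw [← mul_sum]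
      refine mul_le_mul_of_nonneg_left ?_ (by positivity)
      refine (sum_le_sum_of_subset_of_nonneg (t := Icc 1 (2 * N)) (fun s hs => ?_)
        fun _ _ _ => by positivity).trans ?_
      · rw [mem_filter, mem_Ioc] at hs
        exact mem_Icc.2 ⟨hs.1.1, hs.1.2.trans hN'⟩
      · have := harmonic_le_one_add_log (2 * N)
        rw [harmonic_eq_sum_Icc] at this
        push_cast at this
        rw [logOne]
        push_cast
        exact this

/-- The off-diagonal sum of type II. -/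
theorem norm_offdiag_le {γ t : ℝ} (hγ0 : 0 < γ) (hγ1 : γ < 1) (ht : 1 ≤ t) {N N' K Q s s' : ℕ}
    (hK : 0 < K) (h2K : 2 * K ≤ N) (hN' : N' ≤ 2 * N) (hs : K < s) (hss : s < s')
    (hs' : s' ≤ 2 * K) (hQ : s' ≤ s + Q) :
    ‖∑ l ∈ Ioc (N / s) (N' / s'), expI (t * ((s' : ℝ) ^ γ - (s : ℝ) ^ γ) * (l : ℝ) ^ γ)‖ ≤
      testConst γ * (√(t * Q) * (N : ℝ) ^ (γ / 2) + (N : ℝ) ^ (1 - γ / 2)) / √(K : ℝ) := by
  have hK0 : (0 : ℝ) < K := Nat.cast_pos.2 hK
  have h2K' : 2 * (K : ℝ) ≤ N := by exact_mod_cast h2K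
  have hN0 : (0 : ℝ) < N := by linarith
  have hs0 : (0 : ℝ) < s := Nat.cast_pos.2 (by omega)
  obtain ⟨D, hD⟩ : ∃ D, D = t * ((s' : ℝ) ^ γ - (s : ℝ) ^ γ) := ⟨_, rfl⟩
  obtain ⟨hlo, hhi⟩ := rpow_sub_bounds hγ0 hγ1 hs0 (Nat.cast_le.2 hss.le)
  have hd1 : (1 : ℝ) ≤ (s' : ℝ) - s := by
    have : (s : ℝ) + 1 ≤ s' := by exact_mod_cast hss
    linarith
  have hdQ : (s' : ℝ) - s ≤ Q := by
    have : (s' : ℝ) ≤ s + Q := by exact_mod_cast hQ
    linarith
  have hDlo : t * (γ * (2 * (K : ℝ)) ^ (γ - 1)) ≤ D := by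
    rw [hD]
    refine mul_le_mul_of_nonneg_left (le_trans ?_ hlo) (by linarith)
    refine le_trans ?_ (mul_le_mul_of_nonneg_left hd1 (by positivity))
    rw [mul_one]
    exact mul_le_mul_of_nonneg_left (Real.rpow_le_rpow_of_nonpos (by linarith)
      (by exact_mod_cast hs') (by linarith)) hγ0.le
  have hDhi : D ≤ t * (Q * (K : ℝ) ^ (γ - 1)) := by
    rw [hD]
    refine mul_le_mul_of_nonneg_left (hhi.trans ?_) (by linarith)
    refine (mul_le_mul (mul_le_mul hγ1.le (Real.rpow_le_rpow_of_nonpos hK0 (Nat.cast_le.2 hs.le)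
      (by linarith)) (by positivity) zero_le_one) hdQ (by linarith) (by positivity)).trans (le_of_eq ?_)
    ring
  have hD0 : 0 < D :=
    lt_of_lt_of_le (mul_pos (by linarith) (mul_pos hγ0 (Real.rpow_pos_of_pos (by linarith) _))) hDlo
  rw [← hD, show Ioc (N / s) (N' / s') = Ico (N / s + 1) (N' / s' + 1) by ext; simp]
  obtain ⟨Y, hY⟩ : ∃ Y : ℝ, Y = N / (2 * K) := ⟨_, rfl⟩
  have hYK : Y * (2 * K) = N := by rw [hY]; field_simp
  have hY1 : 1 ≤ Y := by rw [hY, le_div_iff₀ (by positivity)]; linarith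
  have ha : Y ≤ ((N / s + 1 : ℕ) : ℝ) := by
    rw [hY, div_le_iff₀ (by positivity)]
    have h1 : N ≤ (N / s + 1) * (2 * K) :=
      (Nat.lt_div_mul_add (a := N) (show 0 < s by omega)).le.trans
        (le_of_eq_of_le (by ring) (Nat.mul_le_mul_left (N / s + 1) (hss.le.trans hs')))
    exact_mod_cast h1
  have hb : ((N' / s' + 1 : ℕ) : ℝ) ≤ 5 * Y := by
    have h1 : ((N' / s' : ℕ) : ℝ) ≤ 4 * Y := by
      refine le_trans Nat.cast_div_le ?_
      rw [div_le_iff₀ (Nat.cast_pos.2 (by omega))]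
      have h3 : (K : ℝ) ≤ s' := Nat.cast_le.2 (by omega)
      have h4 : (N' : ℝ) ≤ 2 * N := by exact_mod_cast hN'
      have := mul_le_mul_of_nonneg_left h3 (show 0 ≤ 4 * Y by linarith)
      linarith
    push_cast
    linarith
  refine (norm_phase_sum_le hγ0 hγ1 hD0.ne' (by linarith) ha hb).trans ?_
  rw [abs_of_pos hD0]
  obtain ⟨w, hw⟩ : ∃ w, w = √(K : ℝ) * (N : ℝ) ^ (γ / 2 - 1) := ⟨_, rfl⟩
  have hw0 : 0 < w := hw ▸ mul_pos (Real.sqrt_pos.2 hK0) (Real.rpow_pos_of_pos hN0 _)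
  have hw2 : w ^ 2 = (K : ℝ) * (N : ℝ) ^ (γ - 2) := by
    rw [hw, mul_pow, Real.sq_sqrt hK0.le, ← Real.rpow_natCast ((N : ℝ) ^ (γ / 2 - 1)),
      ← Real.rpow_mul hN0.le]
    push_cast
    ring_nf
  have h5Y : (5 * Y) ^ (γ - 2) = (5 / 2 : ℝ) ^ (γ - 2) * ((N : ℝ) / K) ^ (γ - 2) := by
    rw [← Real.mul_rpow (by norm_num) (by positivity), hY]
    congr 1
    field_simp
  have hKN : (K : ℝ) ^ (γ - 1) * ((N : ℝ) / K) ^ (γ - 2) = (K : ℝ) * (N : ℝ) ^ (γ - 2) := by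
    rw [Real.div_rpow hN0.le hK0.le, show (γ - 1) = 1 + (γ - 2) by ring, Real.rpow_add hK0,
      Real.rpow_one]
    have : (K : ℝ) ^ (γ - 2) ≠ 0 := (Real.rpow_pos_of_pos hK0 _).ne'
    field_simp
  have hk : 0 ≤ γ * (1 - γ) := (curv_pos hγ0 hγ1).le
  have hupper : γ * (1 - γ) * D * (5 * Y) ^ (γ - 2) ≤ (√(t * Q) * w) ^ 2 := by
    rw [mul_pow, Real.sq_sqrt (by positivity), hw2, ← hKN, h5Y]
    refine (mul_le_mul (mul_le_mul (curv_le_one hγ0 hγ1) hDhi hD0.le zero_le_one)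
      (mul_le_mul_of_nonneg_right (Real.rpow_le_one_of_one_le_of_nonpos (by norm_num) (by linarith))
        (by positivity)) (by positivity) (by positivity)).trans (le_of_eq ?_)
    ring
  have hlower : (√(curv γ * γ) / 5 * w) ^ 2 ≤ γ * (1 - γ) * D * (5 * Y) ^ (γ - 2) := by
    rw [mul_pow, div_pow, Real.sq_sqrt (mul_nonneg (curv_pos hγ0 hγ1).le hγ0.le), hw2, ← hKN, h5Y]
    have h1 : (1 / 2 : ℝ) ≤ (2 : ℝ) ^ (γ - 1) := by
      rw [show (1 / 2 : ℝ) = (2 : ℝ) ^ (-1 : ℝ) by rw [Real.rpow_neg_one]; norm_num]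
      exact Real.rpow_le_rpow_of_exponent_le (by norm_num) (by linarith)
    have h2 : (4 / 25 : ℝ) ≤ (5 / 2 : ℝ) ^ (γ - 2) := by
      have h0 : (5 / 2 : ℝ) ^ (-2 : ℝ) ≤ (5 / 2 : ℝ) ^ (γ - 2) :=
        Real.rpow_le_rpow_of_exponent_le (by norm_num) (by linarith)
      rw [Real.rpow_neg (by norm_num), show (2 : ℝ) = ((2 : ℕ) : ℝ) by norm_num,
        Real.rpow_natCast] at h0
      norm_num at h0 ⊢
      linarith
    refine le_trans ?_ (mul_le_mul (mul_le_mul_of_nonneg_left hDlo hk)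
      (mul_le_mul_of_nonneg_right h2 (by positivity)) (by positivity) (mul_nonneg hk hD0.le))
    rw [Real.mul_rpow two_pos.le hK0.le, curv]
    have h3 := mul_le_mul ht h1 (by norm_num) (by linarith)
    have h4 := mul_le_mul_of_nonneg_left h3 (show 0 ≤ γ * (1 - γ) * γ * (K : ℝ) ^ (γ - 1) *
      ((N : ℝ) / K) ^ (γ - 2) * (4 / 25) by positivity)
    have h5 : 0 ≤ γ * (1 - γ) * γ * ((K : ℝ) ^ (γ - 1) * ((N : ℝ) / K) ^ (γ - 2)) := by positivity
    linarith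
  obtain ⟨σ, hσ⟩ : ∃ σ, σ = √(γ * (1 - γ) * D * (5 * Y) ^ (γ - 2)) := ⟨_, rfl⟩
  rw [← hσ]
  have hσu : σ ≤ √(t * Q) * w := hσ ▸ (Real.sqrt_le_left (by positivity)).2 hupper
  have hσl : √(curv γ * γ) / 5 * w ≤ σ := hσ ▸ Real.le_sqrt_of_sq_le hlower
  have hc0 : 0 < √(curv γ * γ) := Real.sqrt_pos.2 (mul_pos (curv_pos hγ0 hγ1) hγ0)
  have hsK : 0 < √(K : ℝ) := Real.sqrt_pos.2 hK0
  have e1 : (N : ℝ) / K * w = (N : ℝ) ^ (γ / 2) / √(K : ℝ) := by
    rw [hw, show (N : ℝ) ^ (γ / 2) = (N : ℝ) * (N : ℝ) ^ (γ / 2 - 1) by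
      rw [← Real.rpow_one_add' hN0.le (by linarith)]; ring_nf]
    field_simp
    rw [Real.sq_sqrt hK0.le]
  have e2 : w⁻¹ = (N : ℝ) ^ (1 - γ / 2) / √(K : ℝ) := by
    rw [hw, mul_inv, ← Real.rpow_neg hN0.le, neg_sub]
    ring
  have ht1 : 75 * ((N' / s' + 1 - (N / s + 1) : ℕ) : ℝ) * σ ≤
      300 * (√(t * Q) * ((N : ℝ) ^ (γ / 2) / √(K : ℝ))) := by
    rw [← e1]
    refine (mul_le_mul (mul_le_mul_of_nonneg_left
      ((Nat.cast_le.2 (Nat.sub_le _ _)).trans hb) (by norm_num)) hσu (hσ ▸ Real.sqrt_nonneg _)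
      (by positivity)).trans ?_
    rw [show 75 * (5 * Y) * (√(t * Q) * w) = 375 / 2 * (√(t * Q) * ((N : ℝ) / K * w)) by
      rw [hY]; field_simp; ring]
    exact mul_le_mul_of_nonneg_right (by norm_num) (by positivity)
  have ht2 : 26 / σ ≤ 130 / √(curv γ * γ) * ((N : ℝ) ^ (1 - γ / 2) / √(K : ℝ)) := by
    rw [← e2]
    refine (div_le_div_of_nonneg_left (by norm_num) (by positivity) hσl).trans (le_of_eq ?_)
    field_simp
    norm_num
  refine (add_le_add ht1 ht2).trans ?_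
  rw [testConst, mul_add, add_div]
  have h6 : 0 ≤ 130 / √(curv γ * γ) * (√(t * Q) * ((N : ℝ) ^ (γ / 2) / √(K : ℝ))) := by positivity
  have h7 : 0 ≤ 300 * ((N : ℝ) ^ (1 - γ / 2) / √(K : ℝ)) := by positivity
  linarith [show (300 + 130 / √(curv γ * γ)) * (√(t * Q) * (N : ℝ) ^ (γ / 2)) / √(K : ℝ) =
      300 * (√(t * Q) * ((N : ℝ) ^ (γ / 2) / √(K : ℝ))) +
      130 / √(curv γ * γ) * (√(t * Q) * ((N : ℝ) ^ (γ / 2) / √(K : ℝ))) by ring,
    show (300 + 130 / √(curv γ * γ)) * (N : ℝ) ^ (1 - γ / 2) / √(K : ℝ) =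
      300 * ((N : ℝ) ^ (1 - γ / 2) / √(K : ℝ)) +
      130 / √(curv γ * γ) * ((N : ℝ) ^ (1 - γ / 2) / √(K : ℝ)) by ring]

theorem wave_mul_conj (t γ : ℝ) (s s' l : ℕ) :
    wave t γ (s * l) * starRingEnd ℂ (wave t γ (s' * l)) =
      expI (t * ((s : ℝ) ^ γ - (s' : ℝ) ^ γ) * (l : ℝ) ^ γ) := by
  rw [wave, wave, conj_expI, ← expI_add]
  push_cast
  rw [Real.mul_rpow (Nat.cast_nonneg s) (Nat.cast_nonneg l),
    Real.mul_rpow (Nat.cast_nonneg s') (Nat.cast_nonneg l)]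
  ring_nf

/-- One piece of the short variable. -/
theorem sum_norm_piece_sq_le {γ t : ℝ} (hγ0 : 0 < γ) (hγ1 : γ < 1) (ht : 1 ≤ t)
    {N N' K Q : ℕ} (hK : 0 < K) (h2K : 2 * K ≤ N) (hN' : N' ≤ 2 * N) (b : ℕ → ℝ) {T : Finset ℕ}
    (hT : ∀ s ∈ T, K < s ∧ s ≤ 2 * K) (hTQ : ∀ s ∈ T, ∀ s' ∈ T, s' ≤ s + Q) (hTc : #T ≤ Q) :
    ∑ l ∈ Ioc 0 (N' / K),
        ‖∑ s ∈ T, if N < s * l ∧ s * l ≤ N' then (b s : ℂ) * wave t γ (s * l) else 0‖ ^ 2 ≤
      (∑ s ∈ T, b s ^ 2) * ((2 * N : ℝ) / K + Q *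
        (testConst γ * (√(t * Q) * (N : ℝ) ^ (γ / 2) + (N : ℝ) ^ (1 - γ / 2)) / √(K : ℝ))) := by
  obtain ⟨P, hP⟩ : ∃ P, P = testConst γ *
      (√(t * Q) * (N : ℝ) ^ (γ / 2) + (N : ℝ) ^ (1 - γ / 2)) / √(K : ℝ) := ⟨_, rfl⟩
  have hP0 : 0 ≤ P := hP ▸ by have := testConst_pos γ; positivity
  rw [← hP]
  obtain ⟨X, hX⟩ : ∃ X, X = N' / K := ⟨_, rfl⟩
  rw [← hX]
  obtain ⟨J, hJ⟩ : ∃ J : ℕ → ℕ → ℂ, J = fun s s' => ∑ l ∈ (Ioc 0 X).filter
      (fun l => (N < s * l ∧ s * l ≤ N') ∧ (N < s' * l ∧ s' * l ≤ N')),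
        wave t γ (s * l) * starRingEnd ℂ (wave t γ (s' * l)) := ⟨_, rfl⟩
  have hmain : ((∑ l ∈ Ioc 0 X,
      ‖∑ s ∈ T, if N < s * l ∧ s * l ≤ N' then (b s : ℂ) * wave t γ (s * l) else 0‖ ^ 2 : ℝ) : ℂ) =
      ∑ s ∈ T, ∑ s' ∈ T, (b s : ℂ) * (b s' : ℂ) * J s s' := by
    rw [Complex.ofReal_sum]
    simp only [hJ, sum_filter, mul_sum]
    rw [eq_comm, sum_congr rfl fun s _ => sum_comm, sum_comm]
    refine sum_congr rfl fun l _ => ?_
    rw [Complex.ofReal_pow, ← Complex.mul_conj', map_sum, sum_mul_sum]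
    refine sum_congr rfl fun s _ => sum_congr rfl fun s' _ => ?_
    by_cases h1 : N < s * l ∧ s * l ≤ N' <;> by_cases h2 : N < s' * l ∧ s' * l ≤ N' <;>
      simp [h1, h2, mul_mul_mul_comm]
  have hdiag : ∀ s, ‖J s s‖ ≤ (2 * N : ℝ) / K := fun s => by
    rw [hJ]
    refine (norm_sum_le _ _).trans ?_
    simp only [norm_mul, Complex.norm_conj, norm_wave, mul_one, sum_const, nsmul_eq_mul]
    refine (Nat.cast_le.2 ((card_filter_le _ _).trans (Nat.card_Ioc 0 X).le)).trans ?_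
    rw [Nat.sub_zero, hX]
    exact Nat.cast_div_le.trans (div_le_div_of_nonneg_right (by exact_mod_cast hN') (Nat.cast_nonneg K))
  have hoff : ∀ s ∈ T, ∀ s' ∈ T, s < s' → ‖J s' s‖ ≤ P ∧ ‖J s s'‖ ≤ P := by
    intro s hs s' hs' hlt
    have h1 : ‖J s' s‖ ≤ P := by
      have hs0 : 0 < s := (Nat.zero_le K).trans_lt (hT s hs).1
      have hs0' : 0 < s' := hs0.trans hlt
      have e : (Ioc 0 X).filter (fun l => (N < s' * l ∧ s' * l ≤ N') ∧ (N < s * l ∧ s * l ≤ N')) =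
          Ioc (N / s) (N' / s') := by
        ext l
        simp only [mem_filter, mem_Ioc, Nat.div_lt_iff_lt_mul hs0, Nat.le_div_iff_mul_le hs0']
        have hmul : s * l ≤ s' * l := Nat.mul_le_mul_right l hlt.le
        rw [mul_comm l s, mul_comm l s']
        constructor
        · rintro ⟨-, h1, h2⟩
          exact ⟨h2.1, h1.2⟩
        · rintro ⟨h1, h2⟩
          have hl : 0 < l := Nat.pos_of_ne_zero fun h => by simp [h] at h1
          refine ⟨⟨hl, hX ▸ (Nat.le_div_iff_mul_le hK).2 ?_⟩, ⟨by omega, h2⟩, h1, by omega⟩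
          rw [mul_comm]
          exact (Nat.mul_le_mul_right l (hT s' hs').1.le).trans h2
      rw [hJ]
      dsimp only
      rw [e, sum_congr rfl fun l _ => wave_mul_conj t γ s' s l]
      exact hP ▸ norm_offdiag_le hγ0 hγ1 ht hK h2K hN' (hT s hs).1 hlt (hT s' hs').2
        (hTQ s hs s' hs')
    refine ⟨h1, le_of_eq_of_le ?_ h1⟩
    rw [← Complex.norm_conj, hJ]
    simp only [map_sum, map_mul, Complex.conj_conj]
    congr 1
    refine sum_congr (filter_congr fun l _ => and_comm) fun l _ => mul_comm _ _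
  have hterm : ∀ s ∈ T, ∀ s' ∈ T, ‖(b s : ℂ) * (b s' : ℂ) * J s s'‖ ≤
      (b s ^ 2 + b s' ^ 2) / 2 * ((if s = s' then (2 * N : ℝ) / K else 0) + P) := by
    intro s hs s' hs'
    rw [norm_mul, norm_mul, Complex.norm_real, Complex.norm_real, Real.norm_eq_abs, Real.norm_eq_abs]
    refine mul_le_mul ?_ ?_ (norm_nonneg _) (by positivity)
    · nlinarith [sq_nonneg (|b s| - |b s'|), sq_abs (b s), sq_abs (b s')]
    · rcases lt_trichotomy s s' with h | h | h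
      · rw [if_neg h.ne, zero_add]
        exact (hoff s hs s' hs' h).2
      · subst h
        rw [if_pos rfl]
        linarith [hdiag s]
      · rw [if_neg h.ne', zero_add]
        exact (hoff s' hs' s hs h).1
  have h0 : (0 : ℝ) ≤ ∑ l ∈ Ioc 0 X,
      ‖∑ s ∈ T, if N < s * l ∧ s * l ≤ N' then (b s : ℂ) * wave t γ (s * l) else 0‖ ^ 2 :=
    sum_nonneg fun _ _ => sq_nonneg _
  rw [← abs_of_nonneg h0, ← Real.norm_eq_abs, ← Complex.norm_real, hmain]
  refine (norm_sum_le _ _).trans ((sum_le_sum fun s hs => (norm_sum_le _ _).trans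
    (sum_le_sum (hterm s hs))).trans ?_)
  have hsym : ∑ s ∈ T, ∑ s' ∈ T, (b s ^ 2 + b s' ^ 2) / 2 *
      ((if s = s' then (2 * N : ℝ) / K else 0) + P) =
      (∑ s ∈ T, b s ^ 2) * ((2 * N : ℝ) / K + #T * P) := by
    simp only [mul_add, mul_ite, mul_zero, sum_add_distrib, sum_ite_eq, ← sum_mul]
    rw [sum_congr rfl (g := fun s => b s ^ 2 * ((2 * N : ℝ) / K)) fun s hs => by rw [if_pos hs]; ring,
      ← sum_mul]
    simp only [add_div, sum_add_distrib, sum_const, nsmul_eq_mul, ← sum_div, ← mul_sum]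
    ring
  rw [hsym]
  exact mul_le_mul_of_nonneg_left (add_le_add le_rfl
    (mul_le_mul_of_nonneg_right (Nat.cast_le.2 hTc) hP0)) (sum_nonneg fun _ _ => sq_nonneg _)

/-- **A dyadic block of type II.** -/
theorem norm_block_sq_le {γ t G : ℝ} (hγ0 : 0 < γ) (hγ1 : γ < 1) (ht : 1 ≤ t) (hG : 0 ≤ G)
    {N N' K K' Q : ℕ} (hQ : 0 < Q) (hQK : Q ≤ K) (h2K : 2 * K ≤ N) (hN' : N' ≤ 2 * N)
    (hK' : K' ≤ 2 * K) (a b : ℕ → ℝ) (ha : ∀ X, X ≤ 2 * N → ∑ l ∈ Ioc 0 X, a l ^ 2 ≤ X * G)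
    (hb : ∀ X, X ≤ 2 * N → ∑ l ∈ Ioc 0 X, b l ^ 2 ≤ X * G) :
    ‖∑ s ∈ Ioc K K', (b s : ℂ) * ∑ l ∈ Ioc (N / s) (N' / s), (a l : ℂ) * wave t γ (s * l)‖ ^ 2 ≤
      8 * G ^ 2 * N * (2 * (N : ℝ) / Q + √(K : ℝ) *
        (testConst γ * (√(t * Q) * (N : ℝ) ^ (γ / 2) + (N : ℝ) ^ (1 - γ / 2)))) := by
  have hK : 0 < K := hQ.trans_le hQK
  obtain ⟨X, hX⟩ : ∃ X, X = N' / K := ⟨_, rfl⟩
  obtain ⟨R, hR⟩ : ∃ R, R = K / Q + 1 := ⟨_, rfl⟩
  obtain ⟨T, hT⟩ : ∃ T : ℕ → Finset ℕ, T = fun j => (Ioc K K').filter fun s => (s - K - 1) / Q = j :=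
    ⟨_, rfl⟩
  obtain ⟨g, hg⟩ : ∃ g : ℕ → ℕ → ℂ, g = fun j l =>
      ∑ s ∈ T j, if N < s * l ∧ s * l ≤ N' then (b s : ℂ) * wave t γ (s * l) else 0 := ⟨_, rfl⟩
  have hmap : ∀ s ∈ Ioc K K', (s - K - 1) / Q ∈ range R := fun s hs => by
    rw [mem_Ioc] at hs
    rw [mem_range, hR, Nat.lt_succ_iff]
    exact Nat.div_le_div_right (by omega)
  have e : ∑ s ∈ Ioc K K', (b s : ℂ) * ∑ l ∈ Ioc (N / s) (N' / s), (a l : ℂ) * wave t γ (s * l) =
      ∑ l ∈ Ioc 0 X, (a l : ℂ) * ∑ j ∈ range R, g j l := by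
    simp only [hg, hT]
    rw [sum_congr rfl fun l _ => congrArg _ (sum_fiberwise_of_maps_to hmap _)]
    simp only [mul_sum]
    rw [eq_comm, sum_comm]
    refine sum_congr rfl fun s hs => ?_
    rw [mem_Ioc] at hs
    have hs0 : 0 < s := hK.trans hs.1
    simp only [mul_ite, mul_zero]
    rw [← sum_filter]
    refine sum_congr ?_ fun l _ => by ring
    ext l
    simp only [mem_filter, mem_Ioc, Nat.div_lt_iff_lt_mul hs0, Nat.le_div_iff_mul_le hs0, mul_comm s l]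
    constructor
    · exact fun h => h.2
    · rintro ⟨h1, h2⟩
      have hl : 0 < l := Nat.pos_of_ne_zero fun h => by simp [h] at h1
      exact ⟨⟨hl, hX ▸ (Nat.le_div_iff_mul_le hK).2 ((Nat.mul_le_mul_left l hs.1.le).trans h2)⟩, h1, h2⟩
  rw [e]
  refine (pow_le_pow_left₀ (norm_nonneg _) (norm_sum_le _ _) 2).trans ?_
  simp only [norm_mul, Complex.norm_real, Real.norm_eq_abs]
  refine (sum_mul_sq_le_sq_mul_sq _ _ _).trans ?_
  simp only [sq_abs]
  obtain ⟨P, hP⟩ : ∃ P, P = testConst γ *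
      (√(t * Q) * (N : ℝ) ^ (γ / 2) + (N : ℝ) ^ (1 - γ / 2)) / √(K : ℝ) := ⟨_, rfl⟩
  have hP0 : 0 ≤ P := hP ▸ by have := testConst_pos γ; positivity
  have hXle : X ≤ 2 * N := hX ▸ (Nat.div_le_self _ _).trans hN'
  have hB : ∑ l ∈ Ioc 0 X, ‖∑ j ∈ range R, g j l‖ ^ 2 ≤
      (R : ℝ) * (2 * K * G) * ((2 * N : ℝ) / K + Q * P) := by
    refine (sum_le_sum (g := fun l => (R : ℝ) * ∑ j ∈ range R, ‖g j l‖ ^ 2) fun l _ => ?_).trans ?_
    · refine (pow_le_pow_left₀ (norm_nonneg _) (norm_sum_le _ _) 2).trans ?_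
      have h := sq_sum_le_card_mul_sum_sq (s := range R) (f := fun j => ‖g j l‖)
      rwa [card_range] at h
    rw [← mul_sum, sum_comm, mul_assoc]
    refine mul_le_mul_of_nonneg_left ?_ (Nat.cast_nonneg R)
    refine (sum_le_sum (g := fun j => (∑ s ∈ T j, b s ^ 2) * ((2 * N : ℝ) / K + Q * P))
      fun j _ => ?_).trans ?_
    · rw [hg, hX, hP]
      have hmem : ∀ s ∈ T j, K < s ∧ s ≤ K' ∧ Q * j + (K + 1) ≤ s ∧ s < Q * j + Q + (K + 1) :=
        fun s hs => by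
          rw [hT, mem_filter, mem_Ioc] at hs
          have h1 := Nat.div_add_mod (s - K - 1) Q
          have h2 := Nat.mod_lt (s - K - 1) hQ
          rw [hs.2] at h1
          omega
      refine sum_norm_piece_sq_le hγ0 hγ1 ht hK h2K hN' b
        (fun s hs => ⟨(hmem s hs).1, (hmem s hs).2.1.trans hK'⟩) (fun s hs s' hs' => ?_) ?_
      · have := hmem s hs
        have := hmem s' hs'
        omega
      · refine (card_le_card (t := Ico (Q * j + (K + 1)) (Q * j + Q + (K + 1))) fun s hs =>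
          mem_Ico.2 ⟨(hmem s hs).2.2.1, (hmem s hs).2.2.2⟩).trans (le_of_eq ?_)
        rw [Nat.card_Ico]
        omega
    · rw [← sum_mul, hT, sum_fiberwise_of_maps_to hmap]
      refine mul_le_mul_of_nonneg_right ?_ (by positivity)
      refine (sum_le_sum_of_subset_of_nonneg (t := Ioc 0 (2 * K))
        (Ioc_subset_Ioc (Nat.zero_le K) hK') fun _ _ _ => sq_nonneg _).trans ((hb _ ?_).trans_eq ?_)
      · omega
      · push_cast
        ring
  refine (mul_le_mul (ha X hXle) hB (sum_nonneg fun _ _ => sq_nonneg _) (by positivity)).trans ?_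
  have hK0 : (0 : ℝ) < K := Nat.cast_pos.2 hK
  have hQ0 : (0 : ℝ) < Q := Nat.cast_pos.2 hQ
  have h1 : (X : ℝ) ≤ 2 * N / K :=
    hX ▸ Nat.cast_div_le.trans (div_le_div_of_nonneg_right (by exact_mod_cast hN') hK0.le)
  have h2 : (R : ℝ) ≤ 2 * K / Q := by
    have h3 : ((K / Q : ℕ) : ℝ) ≤ (K : ℝ) / Q := Nat.cast_div_le
    have h4 : (1 : ℝ) ≤ (K : ℝ) / Q := by rw [le_div_iff₀ hQ0, one_mul]; exact_mod_cast hQK
    rw [hR]
    push_cast
    linarith [show 2 * (K : ℝ) / Q = (K : ℝ) / Q + (K : ℝ) / Q by ring]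
  refine (mul_le_mul (mul_le_mul_of_nonneg_right h1 hG) (mul_le_mul_of_nonneg_right
    (mul_le_mul_of_nonneg_right h2 (by positivity)) (by positivity)) (by positivity)
    (by positivity)).trans (le_of_eq ?_)
  rw [hP]
  have hsK : √(K : ℝ) ≠ 0 := (Real.sqrt_pos.2 hK0).ne'
  obtain ⟨k, hk⟩ : ∃ k, k = √(K : ℝ) := ⟨_, rfl⟩
  have hk2 : (K : ℝ) = k ^ 2 := by rw [hk, Real.sq_sqrt hK0.le]
  rw [← hk] at hsK ⊢
  rw [hk2]
  field_simp
  ring

/-- `∑ Λ² ≤ X logOne X ^ 4` and `∑ (μ_{> U} * 1)² ≤ X logOne X ^ 4`, with a constant. -/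
theorem sum_coeff_sq_le {N X : ℕ} (U : ℕ) (hX : X ≤ 2 * N) :
    ∑ l ∈ Ioc 0 X, highPart U Λ l ^ 2 ≤ X * (6 * logOne (2 * N) ^ 4) ∧
      ∑ l ∈ Ioc 0 X, tailCoeff U l ^ 2 ≤ X * (6 * logOne (2 * N) ^ 4) := by
  obtain ⟨L, hL⟩ : ∃ L, L = logOne (2 * N) := ⟨_, rfl⟩
  rw [← hL]
  have hL1 : 1 ≤ L := hL ▸ one_le_logOne _
  have hXL : ∀ l, l ≤ X → Real.log l ≤ L := fun l hl => by
    rw [hL, logOne]
    rcases Nat.eq_zero_or_pos l with rfl | h0
    · simp only [Nat.cast_zero, Real.log_zero]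
      linarith [Real.log_natCast_nonneg (2 * N)]
    · linarith [Real.log_le_log (Nat.cast_pos.2 h0) (Nat.cast_le (α := ℝ).2 (hl.trans hX))]
  constructor
  · refine (sum_le_sum (g := fun l : ℕ => L * Λ l) fun l hl => ?_).trans ?_
    · rw [FA.ThreePrimes.highPart_apply]
      have h0 : 0 ≤ Λ l := ArithmeticFunction.vonMangoldt_nonneg
      split_ifs
      · rw [zero_pow two_ne_zero]
        positivity
      · rw [sq]
        exact mul_le_mul_of_nonneg_right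
          (ArithmeticFunction.vonMangoldt_le_log.trans (hXL l (mem_Ioc.1 hl).2)) h0
    · rw [← mul_sum]
      have h := Chebyshev.psi_le_const_mul_self (Nat.cast_nonneg X)
      rw [Chebyshev.psi, Nat.floor_natCast] at h
      refine (mul_le_mul_of_nonneg_left h (by linarith)).trans ?_
      have h4 : Real.log 4 + 4 ≤ 6 := by
        rw [show (4 : ℝ) = 2 ^ 2 by norm_num, Real.log_pow]
        push_cast
        linarith [Real.log_two_lt_d9]
      refine (mul_le_mul_of_nonneg_left (mul_le_mul_of_nonneg_right h4 (Nat.cast_nonneg X))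
        (by linarith)).trans ?_
      have := mul_le_mul_of_nonneg_left (le_self_pow₀ hL1 (show (4 : ℕ) ≠ 0 by norm_num))
        (show 0 ≤ 6 * (X : ℝ) by positivity)
      linarith
  · refine (sum_le_sum (g := fun l : ℕ => (l.divisors.card : ℝ) ^ 2) fun l _ => ?_).trans
      ((FA.ThreePrimes.sum_card_divisors_sq_le X).trans ?_)
    · exact sq_abs (tailCoeff U l) ▸ pow_le_pow_left₀ (abs_nonneg _) (FA.ThreePrimes.abs_tailCoeff_le U l) 2
    · refine mul_le_mul_of_nonneg_left ?_ (Nat.cast_nonneg X)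
      have h1 : logOne X ≤ L := by
        have := hXL X le_rfl
        rcases Nat.eq_zero_or_pos X with rfl | h0
        · simpa [logOne] using hL1
        · rw [hL, logOne, logOne]
          linarith [Real.log_le_log (Nat.cast_pos.2 h0) (Nat.cast_le (α := ℝ).2 hX)]
      refine ((pow_le_pow_left₀ (by linarith [one_le_logOne X]) h1 3).trans
        (pow_le_pow_right₀ hL1 (by norm_num : 3 ≤ 4))).trans ?_
      exact le_mul_of_one_le_left (by positivity) (by norm_num)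

/-- A sum over a dyadic cover. -/
theorem norm_dyadic_cover_le (h : ℕ → ℂ) {U R : ℕ} {Bd : ℝ}
    (hblock : ∀ K K', U ≤ K → K < K' → K' ≤ R → K' ≤ 2 * K → ‖∑ s ∈ Ioc K K', h s‖ ≤ Bd)
    (hBd : 0 ≤ Bd) : ∀ i : ℕ, ‖∑ s ∈ Ioc U (min R (U * 2 ^ i)), h s‖ ≤ (i : ℝ) * Bd := by
  intro i
  induction i with
  | zero =>
    rw [pow_zero, mul_one, Ioc_eq_empty (by omega)]
    simp
  | succ i ih =>
    rcases le_or_gt R (U * 2 ^ i) with hRi | hRi
    · rw [min_eq_left (hRi.trans (Nat.mul_le_mul_left U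
        (Nat.pow_le_pow_right two_pos (Nat.le_succ i))))]
      rw [min_eq_left hRi] at ih
      refine ih.trans ?_
      push_cast
      linarith
    · have hK : U ≤ U * 2 ^ i := Nat.le_mul_of_pos_right U (Nat.two_pow_pos i)
      have h2 : U * 2 ^ (i + 1) = 2 * (U * 2 ^ i) := by ring
      rw [min_eq_right hRi.le] at ih
      rw [h2]
      rcases eq_or_ne (U * 2 ^ i) 0 with h0 | h0
      · rw [h0, Ioc_eq_empty (by omega), sum_empty, norm_zero]
        positivity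
      rw [← sum_Ioc_consecutive h hK (show U * 2 ^ i ≤ min R (2 * (U * 2 ^ i)) by omega)]
      refine (norm_add_le _ _).trans ?_
      push_cast
      have := hblock (U * 2 ^ i) (min R (2 * (U * 2 ^ i))) hK (by omega) (min_le_left _ _)
        (min_le_right _ _)
      linarith

/-- **The sum over `Λ`.** -/
theorem eventually_norm_vonMangoldt_wave_le {γ ε : ℝ} (hγ : 5 / 6 ≤ γ) (hγ1 : γ < 1) (hε : 0 < ε) :
    ∀ᶠ N : ℕ in atTop, ∀ (N' : ℕ) (t : ℝ), N ≤ N' → N' ≤ 2 * N → 1 ≤ t →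
      t ≤ 7 * (N : ℝ) ^ (1 - γ + ε) →
        ‖∑ n ∈ Ioc N N', (Λ n : ℂ) * wave t γ n‖ ≤ (N : ℝ) ^ (11 / 12 + ε) := by
  have hγ0 : 0 < γ := by linarith
  obtain ⟨c, hc⟩ : ∃ c, c = testConst γ := ⟨_, rfl⟩
  have hc300 : 300 ≤ c := by
    rw [hc, testConst]
    exact le_add_of_nonneg_right (by positivity)
  obtain ⟨M, hM⟩ : ∃ M : ℝ, M = 2000 * c := ⟨_, rfl⟩
  have hlog : ∀ᶠ N : ℕ in atTop, M * logOne (2 * N) ^ 6 ≤ (N : ℝ) ^ (ε / 2) := by
    have h1 := ((tendsto_rpow_atTop (show 0 < ε / 4 by linarith)).comp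
      (tendsto_natCast_atTop_atTop (R := ℝ))).eventually_ge_atTop (M * 3 ^ 6)
    filter_upwards [h1, BombieriVinogradov.eventually_log_pow_le 6 (show 0 < ε / 4 by linarith),
      BombieriVinogradov.eventually_log_ge 1, eventually_ge_atTop 1] with N h1 h2 h3 h4
    simp only [Function.comp_apply] at h1
    have hN0 : (0 : ℝ) < N := Nat.cast_pos.2 h4
    have h5 : logOne (2 * N) ≤ 3 * Real.log N := by
      rw [logOne, Nat.cast_mul, Real.log_mul (by norm_num) hN0.ne']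
      push_cast
      linarith [Real.log_two_lt_d9]
    refine (mul_le_mul_of_nonneg_left (pow_le_pow_left₀ (by linarith [one_le_logOne (2 * N)]) h5 6)
      (by rw [hM]; linarith)).trans ?_
    rw [mul_pow, ← mul_assoc, show ε / 2 = ε / 4 + ε / 4 by ring, Real.rpow_add hN0]
    exact mul_le_mul h1 h2 (by positivity) (by positivity)
  filter_upwards [hlog, eventually_ge_atTop (2 ^ 18 : ℕ)] with N hlog hN N' t hNN' hN' ht htN
  have hN1 : (1 : ℝ) ≤ N := Nat.one_le_cast.2 (by omega)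
  have hN0 : (0 : ℝ) < N := by linarith
  obtain ⟨L, hL⟩ : ∃ L, L = logOne (2 * N) := ⟨_, rfl⟩
  rw [← hL] at hlog
  have hL1 : 1 ≤ L := hL ▸ one_le_logOne _
  obtain ⟨U, hU⟩ : ∃ U, U = ⌊(N : ℝ) ^ (1 / 6 : ℝ)⌋₊ := ⟨_, rfl⟩
  have hUle : (U : ℝ) ≤ (N : ℝ) ^ (1 / 6 : ℝ) := hU ▸ Nat.floor_le (by positivity)
  have hU1 : 1 ≤ U := hU ▸ Nat.le_floor (by exact_mod_cast Real.one_le_rpow hN1 (by norm_num))
  have hUge : (N : ℝ) ^ (1 / 6 : ℝ) ≤ 2 * U := by
    have h1 := Nat.lt_floor_add_one ((N : ℝ) ^ (1 / 6 : ℝ))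
    rw [← hU] at h1
    have : (1 : ℝ) ≤ U := Nat.one_le_cast.2 hU1
    linarith
  have hUN : U < N := by
    have h1 : (N : ℝ) ^ (1 / 6 : ℝ) < N := Real.rpow_lt_self_of_one_lt
      (Nat.one_lt_cast.2 (by omega)) (by norm_num)
    exact_mod_cast hUle.trans_lt h1
  have hst : √t ≤ 3 * (N : ℝ) ^ ((1 - γ + ε) / 2) := by
    rw [Real.sqrt_le_left (by positivity), mul_pow, ← Real.rpow_natCast ((N : ℝ) ^ ((1 - γ + ε) / 2)),
      ← Real.rpow_mul hN0.le]
    push_cast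
    rw [show (1 - γ + ε) / 2 * 2 = 1 - γ + ε by ring]
    linarith [Real.rpow_nonneg hN0.le (1 - γ + ε)]
  obtain ⟨Z, hZ⟩ : ∃ Z, Z = (N : ℝ) ^ (11 / 12 + ε / 2) := ⟨_, rfl⟩
  have hpow : ∀ e : ℝ, e ≤ 11 / 12 + ε / 2 → (N : ℝ) ^ e ≤ Z := fun e he =>
    hZ ▸ Real.rpow_le_rpow_of_exponent_le hN1 he
  have hZ0 : 0 ≤ Z := hZ ▸ by positivity
  have hLog : ∀ m, m ≤ N' → Real.log m ≤ L := fun m hm => by
    rw [hL, logOne]
    rcases Nat.eq_zero_or_pos m with rfl | h0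
    · simp only [Nat.cast_zero, Real.log_zero]
      linarith [Real.log_natCast_nonneg (2 * N)]
    · linarith [Real.log_le_log (Nat.cast_pos.2 h0) (Nat.cast_le (α := ℝ).2 (hm.trans hN'))]
  -- type I
  have hone : ∀ (K : ℕ) (f g : ℕ → ℝ) (F W : ℝ), (K : ℝ) ≤ (N : ℝ) ^ (1 / 3 : ℝ) → 0 ≤ F → 0 ≤ W →
      F * W ≤ L ^ 2 → (∀ s, s ≤ N' → |f s| ≤ F) → (∀ s, K < s → f s = 0) →
      (∀ l, 0 < l → l ≤ N' → |g l| ≤ W) → (∀ l, 0 < l → g l ≤ g (l + 1)) →
      ‖pairSum (wave t γ) N N' f g‖ ≤ 12 * c * L ^ 3 * Z := by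
    intro K f g F W hK hF hW hFW hf hf0 hg hmono
    refine (norm_typeOne_wave_le hγ0 hγ1 ht (by omega) hN' f g hF hW hf hf0 hg hmono).trans ?_
    rw [← hc, ← hL]
    have h1 : (K : ℝ) * (√t * (N : ℝ) ^ (γ / 2)) ≤ 3 * Z := by
      refine (mul_le_mul hK (mul_le_mul_of_nonneg_right hst (by positivity)) (by positivity)
        (by positivity)).trans ?_
      rw [mul_assoc (3 : ℝ), mul_left_comm, ← Real.rpow_add hN0, ← Real.rpow_add hN0]
      exact mul_le_mul_of_nonneg_left (hpow _ (by linarith)) (by norm_num)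
    have h2 : (N : ℝ) ^ (1 - γ / 2) * L ≤ Z * L :=
      mul_le_mul_of_nonneg_right (hpow _ (by linarith)) (by linarith)
    have h3 : (3 : ℝ) * Z ≤ 3 * Z * L := le_mul_of_one_le_right (by positivity) hL1
    calc 3 * W * F * c * ((K : ℝ) * (√t * (N : ℝ) ^ (γ / 2)) + (N : ℝ) ^ (1 - γ / 2) * L)
        ≤ 3 * W * F * c * (4 * Z * L) :=
          mul_le_mul_of_nonneg_left (by linarith) (by positivity)
      _ = 12 * c * Z * L * (F * W) := by ring
      _ ≤ 12 * c * Z * L * L ^ 2 := mul_le_mul_of_nonneg_left hFW (by positivity)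
      _ = _ := by ring
  -- type II with the first variable short
  obtain ⟨R, hR⟩ : ∃ R, R = Nat.sqrt N := ⟨_, rfl⟩
  obtain ⟨Bd, hBd⟩ : ∃ Bd, Bd = 120 * c * L ^ 4 * Z := ⟨_, rfl⟩
  have hBd0 : 0 ≤ Bd := hBd ▸ by positivity
  have hshort : ∀ a b : ℕ → ℝ,
      (∀ X, X ≤ 2 * N → ∑ l ∈ Ioc 0 X, a l ^ 2 ≤ X * (6 * L ^ 4)) →
      (∀ X, X ≤ 2 * N → ∑ l ∈ Ioc 0 X, b l ^ 2 ≤ X * (6 * L ^ 4)) →
      (∀ s, s ≤ U → b s = 0) → (∀ s, 3 * R + 3 < s → b s = 0) →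
      ‖pairSum (wave t γ) N N' b a‖ ≤ 3 * L * Bd := by
    intro a b ha hb hbU hbR
    obtain ⟨h, hh⟩ : ∃ h : ℕ → ℂ, h = fun s =>
        (b s : ℂ) * ∑ l ∈ Ioc (N / s) (N' / s), (a l : ℂ) * wave t γ (s * l) := ⟨_, rfl⟩
    obtain ⟨R1, hR1⟩ : ∃ R1, R1 = min (3 * R + 3) N' := ⟨_, rfl⟩
    obtain ⟨i, hi⟩ : ∃ i, i = Nat.log 2 N + 2 := ⟨_, rfl⟩
    have hbig : R1 ≤ U * 2 ^ i := by
      refine le_trans ?_ (Nat.le_mul_of_pos_left _ hU1)
      refine (hR1 ▸ min_le_right _ _ : R1 ≤ N').trans (hN'.trans ?_)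
      have := Nat.lt_pow_succ_log_self one_lt_two N
      rw [Nat.succ_eq_add_one] at this
      rw [hi, pow_succ]
      omega
    have hcover := norm_dyadic_cover_le h (U := U) (R := R1) (Bd := Bd) (fun K K' hUK hKK' hK'R hK2 => ?_)
      hBd0 i
    · rw [min_eq_left hbig] at hcover
      have e : pairSum (wave t γ) N N' b a = ∑ s ∈ Ioc U R1, h s := by
        rw [pairSum_eq, hh]
        refine (sum_subset (fun s hs => ?_) fun s hs hs' => ?_).symm
        · rw [mem_Ioc] at hs ⊢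
          omega
        · rw [mem_Ioc] at hs hs'
          rcases le_or_gt s U with h1 | h1
          · simp [hbU s h1]
          · simp [hbR s (by omega)]
      rw [e]
      refine hcover.trans (mul_le_mul_of_nonneg_right ?_ hBd0)
      have h1 := Nat.pow_log_le_self 2 (show N ≠ 0 by omega)
      have h2 : ((2 : ℝ) ^ Nat.log 2 N) ≤ N := by exact_mod_cast h1
      have h3 := Real.log_le_log (by positivity) h2
      rw [Real.log_pow] at h3
      have h4 := mul_le_mul_of_nonneg_left Real.log_two_gt_d9.le (Nat.cast_nonneg (α := ℝ) (Nat.log 2 N))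
      have h5 : 1 + Real.log 2 + Real.log N = L := by
        rw [hL, logOne, Nat.cast_mul, Real.log_mul (by norm_num) hN0.ne']
        push_cast
        ring
      rw [hi]
      push_cast
      linarith [Real.log_two_gt_d9, Real.log_natCast_nonneg N]
    rw [hh]
    have h2K : 2 * K ≤ N := by
      have h1 := Nat.sqrt_le N
      rw [← hR] at h1
      have h2 : 512 ≤ R := hR ▸ Nat.le_sqrt'.2 (by omega)
      have h3 := Nat.mul_le_mul_right R h2
      omega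
    have hK0 : 0 < K := hU1.trans hUK
    refine (pow_le_pow_iff_left₀ (norm_nonneg _) hBd0 two_ne_zero).1 ?_
    refine (norm_block_sq_le (G := 6 * L ^ 4) hγ0 hγ1 ht (by positivity) (show 0 < U by omega) hUK
      h2K hN' hK2 a b ha hb).trans ?_
    rw [← hc]
    obtain ⟨Y, hY⟩ : ∃ Y, Y = (N : ℝ) ^ (5 / 6 + ε) := ⟨_, rfl⟩
    have hY' : ∀ e : ℝ, e ≤ 5 / 6 + ε → (N : ℝ) ^ e ≤ Y := fun e he =>
      hY ▸ Real.rpow_le_rpow_of_exponent_le hN1 he
    have hsK : √(K : ℝ) ≤ 2 * (N : ℝ) ^ (1 / 4 : ℝ) := by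
      rw [Real.sqrt_le_left (by positivity), mul_pow, ← Real.rpow_natCast ((N : ℝ) ^ (1 / 4 : ℝ)),
        ← Real.rpow_mul hN0.le]
      norm_num
      rw [← Real.sqrt_eq_rpow]
      refine le_trans (Nat.cast_le.2 (show K ≤ 4 * R by
        have : 3 ≤ R := hR ▸ Nat.le_sqrt'.2 (by omega)
        omega)) ?_
      push_cast
      refine mul_le_mul_of_nonneg_left (Real.le_sqrt_of_sq_le ?_) (by norm_num)
      rw [hR]
      exact_mod_cast Nat.sqrt_le' N
    have h1 : 2 * (N : ℝ) / U ≤ 4 * Y := by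
      rw [div_le_iff₀ (Nat.cast_pos.2 (show 0 < U by omega))]
      have h0 := mul_le_mul_of_nonneg_left hUge (show 0 ≤ 2 * Y by rw [hY]; positivity)
      have h0' : (N : ℝ) ≤ Y * (N : ℝ) ^ (1 / 6 : ℝ) := by
        refine le_trans ?_ (mul_le_mul_of_nonneg_right (hY' (5 / 6) (by linarith)) (by positivity))
        rw [← Real.rpow_add hN0]
        norm_num
      linarith
    have h2 : √(K : ℝ) * (√(t * U) * (N : ℝ) ^ (γ / 2)) ≤ 6 * Y := by
      rw [Real.sqrt_mul (by linarith)]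
      refine (mul_le_mul hsK (mul_le_mul_of_nonneg_right (mul_le_mul hst
        (Real.sqrt_le_sqrt hUle) (Real.sqrt_nonneg _) (by positivity)) (by positivity))
        (by positivity) (by positivity)).trans ?_
      rw [Real.sqrt_eq_rpow, ← Real.rpow_mul hN0.le,
        show 2 * (N : ℝ) ^ (1 / 4 : ℝ) * (3 * (N : ℝ) ^ ((1 - γ + ε) / 2) *
          (N : ℝ) ^ (1 / 6 * (1 / 2) : ℝ) * (N : ℝ) ^ (γ / 2)) =
          6 * ((N : ℝ) ^ (1 / 4 : ℝ) * (N : ℝ) ^ ((1 - γ + ε) / 2) *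
          (N : ℝ) ^ (1 / 6 * (1 / 2) : ℝ) * (N : ℝ) ^ (γ / 2)) by ring,
        ← Real.rpow_add hN0, ← Real.rpow_add hN0, ← Real.rpow_add hN0]
      exact mul_le_mul_of_nonneg_left (hY' _ (by linarith)) (by norm_num)
    have h3 : √(K : ℝ) * (N : ℝ) ^ (1 - γ / 2) ≤ 2 * Y := by
      refine (mul_le_mul_of_nonneg_right hsK (by positivity)).trans ?_
      rw [mul_assoc, ← Real.rpow_add hN0]
      exact mul_le_mul_of_nonneg_left (hY' _ (by linarith)) (by norm_num)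
    have hY0 : 0 ≤ Y := hY ▸ by positivity
    have hNY : (N : ℝ) * Y = Z ^ 2 := by
      rw [hY, hZ, ← Real.rpow_natCast ((N : ℝ) ^ (11 / 12 + ε / 2)), ← Real.rpow_mul hN0.le]
      conv_lhs => rw [← Real.rpow_one_add' hN0.le (by linarith)]
      push_cast
      ring_nf
    have hinner : 2 * (N : ℝ) / U + √(K : ℝ) *
        (c * (√(t * U) * (N : ℝ) ^ (γ / 2) + (N : ℝ) ^ (1 - γ / 2))) ≤ 12 * c * Y := by
      rw [show √(K : ℝ) * (c * (√(t * U) * (N : ℝ) ^ (γ / 2) + (N : ℝ) ^ (1 - γ / 2))) =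
        c * (√(K : ℝ) * (√(t * U) * (N : ℝ) ^ (γ / 2)) + √(K : ℝ) * (N : ℝ) ^ (1 - γ / 2)) by ring]
      have := mul_le_mul_of_nonneg_left (add_le_add h2 h3) (show 0 ≤ c by linarith)
      have := mul_le_mul_of_nonneg_right (show (1 : ℝ) ≤ c by linarith) (show 0 ≤ 4 * Y by linarith)
      linarith
    refine (mul_le_mul_of_nonneg_left hinner (by positivity)).trans ?_
    rw [show 8 * (6 * L ^ 4) ^ 2 * N * (12 * c * Y) = 3456 * c * (L ^ 4) ^ 2 * ((N : ℝ) * Y) by ring,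
      hNY, hBd, show (120 * c * L ^ 4 * Z) ^ 2 = 14400 * c ^ 2 * (L ^ 4) ^ 2 * Z ^ 2 by ring]
    gcongr
    · norm_num
    · exact le_self_pow₀ (by linarith) two_ne_zero
  -- the identity
  have hlow : ∑ n ∈ Ioc N N', ((lowPart U Λ n : ℝ) : ℂ) * wave t γ n = 0 :=
    sum_eq_zero fun n hn => by
      rw [FA.ThreePrimes.lowPart_apply, if_neg (by rw [mem_Ioc] at hn; omega)]
      simp
  have hp1 : ‖∑ n ∈ Ioc N N', (((lowPart U moebiusR * ArithmeticFunction.log) n : ℝ) : ℂ) *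
      wave t γ n‖ ≤ 12 * c * L ^ 3 * Z := by
    rw [sum_convolution]
    refine hone U _ _ 1 L (hUle.trans (Real.rpow_le_rpow_of_exponent_le hN1 (by norm_num)))
      zero_le_one (by linarith) (by rw [one_mul]; exact le_self_pow₀ hL1 two_ne_zero)
      (fun s _ => ?_) (fun s hs => ?_) (fun l _ hl => ?_) fun l hl => ?_
    · rw [FA.ThreePrimes.lowPart_apply]
      split_ifs
      · exact FA.ThreePrimes.abs_moebiusR_le s
      · simp
    · rw [FA.ThreePrimes.lowPart_apply, if_neg (by omega)]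
    · rw [ArithmeticFunction.log_apply, abs_of_nonneg (Real.log_natCast_nonneg l)]
      exact hLog l hl
    · rw [ArithmeticFunction.log_apply, ArithmeticFunction.log_apply]
      exact Real.log_le_log (Nat.cast_pos.2 hl) (Nat.cast_le.2 (Nat.le_succ l))
  have hp2 : ‖∑ n ∈ Ioc N N', (((lowPart U Λ * lowPart U moebiusR * oneR) n : ℝ) : ℂ) *
      wave t γ n‖ ≤ 12 * c * L ^ 3 * Z := by
    rw [sum_convolution]
    have hone' : ∀ l : ℕ, 0 < l → oneR l = 1 := fun l hl => by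
      simp [oneR, ArithmeticFunction.zeta_apply, hl.ne']
    refine hone (U * U) _ _ L 1 ?_ (by linarith) zero_le_one
      (by rw [mul_one]; exact le_self_pow₀ hL1 two_ne_zero) (fun s hs => ?_)
      (fun s hs => FA.ThreePrimes.low_mul_eq_zero hs) (fun l hl _ => by rw [hone' l hl]; simp)
      fun l hl => by rw [hone' l hl, hone' (l + 1) (by omega)]
    · push_cast
      refine (mul_le_mul hUle hUle (Nat.cast_nonneg U) (by positivity)).trans (le_of_eq ?_)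
      rw [← Real.rpow_add hN0]
      norm_num
    · exact (FA.ThreePrimes.abs_low_mul_le U s).trans (hLog s hs)
  have hp3 : ‖∑ n ∈ Ioc N N', (((highPart U Λ * tailCoeff U) n : ℝ) : ℂ) * wave t γ n‖ ≤
      2 * (3 * L * Bd) := by
    rw [sum_convolution]
    obtain ⟨A, hA⟩ : ∃ A : ℕ → ℝ, A = fun m => highPart U Λ m := ⟨_, rfl⟩
    obtain ⟨B, hB⟩ : ∃ B : ℕ → ℝ, B = fun m => tailCoeff U m := ⟨_, rfl⟩
    rw [show ⇑(highPart U Λ) = A from hA.symm, show ⇑(tailCoeff U) = B from hB.symm]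
    obtain ⟨B₁, hB₁⟩ : ∃ B₁ : ℕ → ℝ, B₁ = fun l => if l ≤ R then B l else 0 := ⟨_, rfl⟩
    obtain ⟨B₂, hB₂⟩ : ∃ B₂ : ℕ → ℝ, B₂ = fun l => if l ≤ R then 0 else B l := ⟨_, rfl⟩
    obtain ⟨A₂, hA₂⟩ : ∃ A₂ : ℕ → ℝ, A₂ = fun m => if m ≤ 3 * R + 3 then A m else 0 := ⟨_, rfl⟩
    have e : pairSum (wave t γ) N N' A B =
        pairSum (wave t γ) N N' B₁ A + pairSum (wave t γ) N N' A₂ B₂ := by
      rw [pairSum_comm (wave t γ) N N' B₁ A]
      have e1 : pairSum (wave t γ) N N' A₂ B₂ = pairSum (wave t γ) N N' A B₂ := by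
        refine pairSum_congr fun m l _ h2 => ?_
        rw [hA₂, hB₂]
        dsimp only
        rcases le_or_gt l R with hl | hl
        · rw [if_pos hl, mul_zero, mul_zero]
        · rw [if_pos]
          have h3 : m * (R + 1) ≤ 2 * N := (Nat.mul_le_mul_left m hl).trans (h2.trans hN')
          have h4 : N < (R + 1) * (R + 1) := hR ▸ Nat.lt_succ_sqrt N
          by_contra hm
          have h5 := Nat.mul_le_mul_right (R + 1) (not_le.1 hm)
          nlinarith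
      rw [e1, ← pairSum_add_right]
      refine pairSum_congr fun m l _ _ => ?_
      rw [hB₁, hB₂]
      dsimp only
      split_ifs <;> simp
    rw [e, two_mul]
    refine (norm_add_le _ _).trans (add_le_add ?_ ?_)
    · refine hshort A B₁ (fun X hX => ?_) (fun X hX => ?_) (fun s hs => ?_) fun s hs => ?_
      · rw [hA, hL]
        exact (sum_coeff_sq_le U hX).1
      · refine (sum_le_sum fun l _ => ?_).trans (hL ▸ (sum_coeff_sq_le U hX).2)
        rw [hB₁, hB]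
        dsimp only
        split_ifs
        · exact le_rfl
        · rw [zero_pow two_ne_zero]
          positivity
      · rw [hB₁, hB]
        simp [FA.ThreePrimes.tailCoeff_eq_zero hs]
      · rw [hB₁]
        dsimp only
        rw [if_neg (by omega)]
    · refine hshort B₂ A₂ (fun X hX => ?_) (fun X hX => ?_) (fun s hs => ?_) fun s hs => ?_
      · refine (sum_le_sum fun l _ => ?_).trans (hL ▸ (sum_coeff_sq_le U hX).2)
        rw [hB₂, hB]
        dsimp only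
        split_ifs
        · rw [zero_pow two_ne_zero]
          positivity
        · exact le_rfl
      · refine (sum_le_sum fun l _ => ?_).trans (hL ▸ (sum_coeff_sq_le U hX).1)
        rw [hA₂, hA]
        dsimp only
        split_ifs
        · exact le_rfl
        · rw [zero_pow two_ne_zero]
          positivity
      · rw [hA₂, hA]
        simp [FA.ThreePrimes.highPart_apply, hs]
      · rw [hA₂]
        dsimp only
        rw [if_neg (by omega)]
  have hΛ : ∀ n, Λ n = lowPart U Λ n + (lowPart U moebiusR * ArithmeticFunction.log) n -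
      (lowPart U Λ * lowPart U moebiusR * oneR) n + (highPart U Λ * tailCoeff U) n := fun n => by
    conv_lhs => rw [FA.ThreePrimes.vaughan U]
    simp only [tailCoeff, sub_eq_add_neg, ArithmeticFunction.add_apply]
    rfl
  have e : ∑ n ∈ Ioc N N', (Λ n : ℂ) * wave t γ n =
      ∑ n ∈ Ioc N N', ((lowPart U Λ n : ℝ) : ℂ) * wave t γ n +
      ∑ n ∈ Ioc N N', (((lowPart U moebiusR * ArithmeticFunction.log) n : ℝ) : ℂ) * wave t γ n -
      ∑ n ∈ Ioc N N', (((lowPart U Λ * lowPart U moebiusR * oneR) n : ℝ) : ℂ) * wave t γ n +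
      ∑ n ∈ Ioc N N', (((highPart U Λ * tailCoeff U) n : ℝ) : ℂ) * wave t γ n := by
    simp only [← sum_add_distrib, ← sum_sub_distrib]
    refine sum_congr rfl fun n _ => ?_
    rw [hΛ n]
    push_cast
    ring
  rw [e, hlow, zero_add]
  refine ((norm_add_le _ _).trans (add_le_add (norm_sub_le _ _) le_rfl)).trans
    ((add_le_add (add_le_add hp1 hp2) hp3).trans ?_)
  rw [hBd, show (11 / 12 + ε : ℝ) = (11 / 12 + ε / 2) + ε / 2 by ring, Real.rpow_add hN0, ← hZ]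
  refine le_trans ?_ (mul_le_mul_of_nonneg_left hlog hZ0)
  rw [hM]
  have h1 : c * L ^ 3 * Z ≤ c * L ^ 6 * Z := by
    have := pow_le_pow_right₀ hL1 (show 3 ≤ 6 by norm_num)
    gcongr
  have h2 : c * L ^ 5 * Z ≤ c * L ^ 6 * Z := by
    have := pow_le_pow_right₀ hL1 (show 5 ≤ 6 by norm_num)
    gcongr
  have h3 : 0 ≤ c * L ^ 6 * Z := by positivity
  linarith

/-- **The sum over the primes.** -/
theorem eventually_norm_prime_wave_le {γ ε : ℝ} (hγ : 5 / 6 ≤ γ) (hγ1 : γ < 1) (hε : 0 < ε) :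
    ∀ᶠ N : ℕ in atTop, ∀ (N' : ℕ) (t : ℝ), N ≤ N' → N' ≤ 2 * N → 1 ≤ t →
      t ≤ 7 * (N : ℝ) ^ (1 - γ + ε) →
        ‖∑ p ∈ (Ioc N N').filter Nat.Prime, wave t γ p‖ ≤ 21 * (N : ℝ) ^ (11 / 12 + ε) := by
  filter_upwards [eventually_norm_vonMangoldt_wave_le hγ hγ1 hε,
    BombieriVinogradov.eventually_log_pow_le 1 (show (0 : ℝ) < 5 / 12 by norm_num),
    eventually_ge_atTop 3] with N hN hlog hN3 N' t hNN' hN' ht htN
  have hN0 : (0 : ℝ) < N := Nat.cast_pos.2 (by omega)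
  have hN1 : (1 : ℝ) ≤ N := Nat.one_le_cast.2 (by omega)
  rw [pow_one] at hlog
  obtain ⟨Z, hZ⟩ : ∃ Z, Z = (N : ℝ) ^ (11 / 12 + ε) := ⟨_, rfl⟩
  have hZ0 : 0 ≤ Z := hZ ▸ by positivity
  rw [← hZ]
  obtain ⟨z, hz⟩ : ∃ z : ℕ → ℂ, z = fun n => if n.Prime then (Λ n : ℂ) * wave t γ n else 0 :=
    ⟨_, rfl⟩
  have e : ∑ p ∈ (Ioc N N').filter Nat.Prime, wave t γ p =
      ∑ n ∈ Ioc N N', (((Real.log n)⁻¹ : ℝ) : ℂ) * z n := by
    rw [sum_filter, hz]
    refine sum_congr rfl fun n hn => ?_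
    dsimp only
    split_ifs with hp
    · have h0 : Real.log (n : ℝ) ≠ 0 := (Real.log_pos (Nat.one_lt_cast.2 hp.one_lt)).ne'
      rw [← mul_assoc, ← Complex.ofReal_mul, ArithmeticFunction.vonMangoldt_apply_prime hp,
        inv_mul_cancel₀ h0, Complex.ofReal_one, one_mul]
    · rw [mul_zero]
  rw [e]
  have hB : ∀ c, N ≤ c → c ≤ N' → ‖∑ n ∈ Ioc N c, z n‖ ≤ 7 * Z := by
    intro c hc hc'
    have e2 : ∑ n ∈ Ioc N c, z n = ∑ n ∈ Ioc N c, (Λ n : ℂ) * wave t γ n -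
        ∑ n ∈ (Ioc N c).filter (fun n => ¬ n.Prime), (Λ n : ℂ) * wave t γ n := by
      rw [sum_filter, ← sum_sub_distrib, hz]
      refine sum_congr rfl fun n _ => ?_
      dsimp only
      split_ifs <;> simp
    rw [e2]
    refine (norm_sub_le _ _).trans ?_
    refine (add_le_add ((hN c t hc (hc'.trans hN') ht htN).trans_eq hZ.symm) (le_refl _)).trans ?_
    suffices h : ‖∑ n ∈ (Ioc N c).filter (fun n => ¬ n.Prime), (Λ n : ℂ) * wave t γ n‖ ≤ 6 * Z by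
      linarith
    refine (norm_sum_le _ _).trans ?_
    simp only [norm_mul, norm_wave, mul_one, Complex.norm_real, Real.norm_eq_abs,
      abs_of_nonneg ArithmeticFunction.vonMangoldt_nonneg]
    refine (sum_le_sum_of_subset_of_nonneg
      (t := (Ioc 0 ⌊((2 * N : ℕ) : ℝ)⌋₊).filter fun n => ¬ n.Prime) (fun n hn => ?_)
      fun n _ _ => ArithmeticFunction.vonMangoldt_nonneg).trans ?_
    · rw [Nat.floor_natCast]
      rw [mem_filter, mem_Ioc] at hn ⊢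
      exact ⟨⟨by omega, hn.1.2.trans (hc'.trans hN')⟩, hn.2⟩
    · rw [← Chebyshev.psi_sub_theta_eq_sum_not_prime]
      refine (Chebyshev.psi_sub_theta_le (Nat.one_le_cast.2 (by omega))).trans ?_
      have h1 : √((2 * N : ℕ) : ℝ) ≤ 3 / 2 * (N : ℝ) ^ (1 / 2 : ℝ) := by
        push_cast
        rw [Real.sqrt_mul two_pos.le, ← Real.sqrt_eq_rpow]
        refine mul_le_mul_of_nonneg_right ?_ (Real.sqrt_nonneg _)
        rw [Real.sqrt_le_iff]
        norm_num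
      have h2 : Real.log ((2 * N : ℕ) : ℝ) ≤ (N : ℝ) ^ (5 / 12 : ℝ) + 1 := by
        push_cast
        rw [Real.log_mul two_ne_zero hN0.ne']
        linarith [Real.log_two_lt_d9]
      have h3 : (N : ℝ) ^ (1 / 2 : ℝ) * (N : ℝ) ^ (5 / 12 : ℝ) ≤ Z := by
        rw [← Real.rpow_add hN0, hZ]
        exact Real.rpow_le_rpow_of_exponent_le hN1 (by linarith)
      have h4 : (N : ℝ) ^ (1 / 2 : ℝ) ≤ Z := hZ ▸ Real.rpow_le_rpow_of_exponent_le hN1 (by linarith)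
      refine (mul_le_mul (mul_le_mul_of_nonneg_left h1 two_pos.le) h2 (Real.log_natCast_nonneg _)
        (by positivity)).trans ?_
      linarith [hZ0, show 2 * (3 / 2 * (N : ℝ) ^ (1 / 2 : ℝ)) * ((N : ℝ) ^ (5 / 12 : ℝ) + 1) =
        3 * ((N : ℝ) ^ (1 / 2 : ℝ) * (N : ℝ) ^ (5 / 12 : ℝ)) + 3 * (N : ℝ) ^ (1 / 2 : ℝ) by ring]
  have hmain := norm_sum_monotone_mul_le (w := fun n : ℕ => (Real.log n)⁻¹) (z := z) N' 1 (7 * Z)
    hNN' zero_le_one (by positivity) (fun n hn => ?_) (Or.inr fun n hn _ => ?_) hB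
  · linarith
  · rw [mem_Ioc] at hn
    have h1 : 1 ≤ Real.log n := by
      rw [Real.le_log_iff_exp_le (Nat.cast_pos.2 (by omega))]
      linarith [Real.exp_one_lt_d9, show (3 : ℝ) ≤ n from Nat.ofNat_le_cast.2 (by omega)]
    rw [abs_of_nonneg (inv_nonneg.2 (by linarith))]
    exact inv_le_one_of_one_le₀ h1
  · rw [mem_Ioc] at hn
    exact inv_anti₀ (Real.log_pos (Nat.one_lt_cast.2 (by omega)))
      (Real.log_le_log (Nat.cast_pos.2 (by omega)) (Nat.cast_le.2 (Nat.le_succ n)))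

end FA.PiatetskiShapiro
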