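import Fermat.Agent.Discrepancy.ErdosTuran
import Fermat.Agent.PiatetskiShapiro.ExpSum

/-!
# The values of `⌊n ^ c⌋`

For `1 < c`, `γ = 1 / c`, the number `p` is `⌊n ^ c⌋` for some `n` exactly if
`{-p ^ γ} < (p + 1) ^ γ - p ^ γ`, and `n` is then unique. With this the primes among the values are
counted by primes, and the inequality of Erdős and Turán is put in a form for finite sets.
-/

set_option autoImplicit false

noncomputable section

namespace FA.PiatetskiShapiro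

open Finset
open scoped Classical

/-- `p = ⌊n ^ c⌋` for some `n`, in terms of `γ = 1 / c`. -/
def Hit (γ : ℝ) (p : ℕ) : Prop :=
  Int.fract (-((p : ℝ) ^ γ)) < ((p : ℝ) + 1) ^ γ - (p : ℝ) ^ γ

/-- The number of primes up to `P` among the values. -/
def hitCount (γ : ℝ) (P : ℕ) : ℕ := #((Ioc 0 P).filter fun p => p.Prime ∧ Hit γ p)

theorem fract_neg_eq {y : ℝ} (hy : 0 ≤ y) : Int.fract (-y) = (⌈y⌉₊ : ℝ) - y := by
  have h : ((⌈y⌉₊ : ℕ) : ℝ) = ((⌈y⌉ : ℤ) : ℝ) := by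
    rw [← Int.cast_natCast (R := ℝ), Int.natCast_ceil_eq_ceil hy]
  rw [h, Int.fract, Int.floor_neg]
  push_cast
  ring

theorem hit_iff (γ : ℝ) (p : ℕ) :
    Hit γ p ↔ ∃ n : ℕ, (p : ℝ) ^ γ ≤ n ∧ (n : ℝ) < ((p : ℝ) + 1) ^ γ := by
  rw [Hit, fract_neg_eq (Real.rpow_nonneg (Nat.cast_nonneg p) γ), sub_lt_sub_iff_right]
  exact ⟨fun h => ⟨_, Nat.le_ceil _, h⟩,
    fun ⟨n, h1, h2⟩ => (Nat.cast_le.2 (Nat.ceil_le.2 h1)).trans_lt h2⟩

theorem floor_rpow_eq_iff {c : ℝ} (hc : 0 < c) (n p : ℕ) :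
    ⌊(n : ℝ) ^ c⌋₊ = p ↔ (p : ℝ) ^ c⁻¹ ≤ n ∧ (n : ℝ) < ((p : ℝ) + 1) ^ c⁻¹ := by
  rw [Nat.floor_eq_iff (Real.rpow_nonneg (Nat.cast_nonneg n) c),
    Real.rpow_inv_le_iff_of_pos (Nat.cast_nonneg p) (Nat.cast_nonneg n) hc,
    Real.lt_rpow_inv_iff_of_pos (Nat.cast_nonneg n) (by positivity) hc]

theorem rpow_add_one_le {c x : ℝ} (hc : 1 ≤ c) (hx : 0 < x) : x ^ c + 1 ≤ (x + 1) ^ c := by
  have h1 : ∀ z : ℝ, 0 < z → z ^ c = z * z ^ (c - 1) := fun z hz => by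
    rw [← Real.rpow_one_add' hz.le (by linarith)]
    ring_nf
  rw [h1 x hx, h1 (x + 1) (by linarith)]
  have h2 := mul_le_mul_of_nonneg_left
    (Real.rpow_le_rpow hx.le (show x ≤ x + 1 by linarith) (show 0 ≤ c - 1 by linarith)) hx.le
  have h3 : 1 ≤ (x + 1) ^ (c - 1) := Real.one_le_rpow (by linarith) (by linarith)
  linarith

theorem floor_rpow_lt {c : ℝ} (hc : 1 ≤ c) {m n : ℕ} (hm : 0 < m) (hmn : m < n) :
    ⌊(m : ℝ) ^ c⌋₊ < ⌊(n : ℝ) ^ c⌋₊ := by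
  refine Nat.lt_of_succ_le (Nat.le_floor ?_)
  push_cast
  have h1 := Nat.floor_le (Real.rpow_nonneg (Nat.cast_nonneg m) c)
  have h2 := rpow_add_one_le hc (show (0 : ℝ) < m from Nat.cast_pos.2 hm)
  have h3 : ((m : ℝ) + 1) ^ c ≤ (n : ℝ) ^ c :=
    Real.rpow_le_rpow (by positivity) (by exact_mod_cast hmn) (by linarith)
  linarith

/-- **The primes among `⌊n ^ c⌋`, `n ≤ N`, counted by primes.** -/
theorem card_floor_rpow_prime {c : ℝ} (hc : 1 ≤ c) (N : ℕ) :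
    #((Icc 1 N).filter fun n : ℕ => (⌊(n : ℝ) ^ c⌋₊).Prime) = hitCount c⁻¹ ⌊(N : ℝ) ^ c⌋₊ := by
  have hc0 : 0 < c := by linarith
  refine card_bij (fun n _ => ⌊(n : ℝ) ^ c⌋₊) (fun n hn => ?_) (fun m hm n hn h => ?_) fun p hp => ?_
  · rw [mem_filter, mem_Icc] at hn
    rw [mem_filter, mem_Ioc]
    refine ⟨⟨hn.2.pos, Nat.floor_mono (Real.rpow_le_rpow (Nat.cast_nonneg n)
      (Nat.cast_le.2 hn.1.2) hc0.le)⟩, hn.2, (hit_iff _ _).2 ⟨n, ?_⟩⟩
    exact (floor_rpow_eq_iff hc0 n _).1 rfl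
  · rw [mem_filter, mem_Icc] at hm hn
    rcases lt_trichotomy m n with hlt | heq | hlt
    · exact absurd h (floor_rpow_lt hc hm.1.1 hlt).ne
    · exact heq
    · exact absurd h (floor_rpow_lt hc hn.1.1 hlt).ne'
  · rw [mem_filter, mem_Ioc, hit_iff] at hp
    obtain ⟨⟨hp0, hpN⟩, hpp, n, hn⟩ := hp
    have h0 : (0 : ℝ) < n := lt_of_lt_of_le (Real.rpow_pos_of_pos (Nat.cast_pos.2 hp0) _) hn.1
    have hval := (floor_rpow_eq_iff hc0 n p).2 hn
    refine ⟨n, mem_filter.2 ⟨mem_Icc.2 ⟨Nat.cast_pos.1 h0, ?_⟩, hval ▸ hpp⟩, hval⟩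
    by_contra hcon
    rcases Nat.eq_zero_or_pos N with rfl | hN0
    · simp [Real.zero_rpow hc0.ne'] at hpN
      omega
    · have := floor_rpow_lt hc hN0 (not_le.1 hcon)
      omega

theorem hitCount_le (γ : ℝ) (P : ℕ) : hitCount γ P ≤ P :=
  (card_filter_le _ _).trans (le_of_eq (by simp))

theorem hitCount_add_block (γ : ℝ) {Q P : ℕ} (hQP : Q ≤ P) :
    hitCount γ P = hitCount γ Q + #(((Ioc Q P).filter Nat.Prime).filter (Hit γ)) := by
  rw [hitCount, hitCount, filter_filter, ← Ioc_union_Ioc_eq_Ioc (Nat.zero_le Q) hQP, filter_union,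
    card_union_of_disjoint (disjoint_filter_filter (Ioc_disjoint_Ioc_of_le le_rfl))]

theorem primeCounting_add_block {Q P : ℕ} (hQP : Q ≤ P) :
    Nat.primeCounting Q + #((Ioc Q P).filter Nat.Prime) = Nat.primeCounting P := by
  rw [Nat.primeCounting, Nat.primeCounting, Nat.primeCounting', Nat.count_eq_card_filter_range,
    Nat.count_eq_card_filter_range, ← card_union_of_disjoint]
  · congr 1
    ext p
    simp only [mem_union, mem_filter, mem_range, mem_Ioc]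
    constructor
    · rintro (⟨h1, h2⟩ | ⟨h1, h2⟩) <;> exact ⟨by omega, h2⟩
    · rintro ⟨h1, h2⟩
      rcases le_or_gt p Q with h | h
      · exact Or.inl ⟨by omega, h2⟩
      · exact Or.inr ⟨⟨h, by omega⟩, h2⟩
  · refine disjoint_left.2 fun p h1 h2 => ?_
    simp only [mem_filter, mem_range, mem_Ioc] at h1 h2
    omega

/-- **Erdős-Turán on a finite set.** -/
theorem abs_card_fract_lt_sub_le (s : Finset ℕ) (f : ℕ → ℝ) (H : ℕ) {d : ℝ} (hd : 0 ≤ d)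
    (hd1 : d ≤ 1) :
    |(#(s.filter fun p => Int.fract (f p) < d) : ℝ) - d * #s| ≤ 100 * (#s : ℝ) / ((H : ℝ) + 1) +
      2 * ∑ h ∈ Icc 1 H, ‖∑ p ∈ s, Complex.exp ((2 * Real.pi * (h * f p) : ℝ) * Complex.I)‖ / h := by
  rcases s.eq_empty_or_nonempty with rfl | hs
  · simp
  obtain ⟨x, hx⟩ : ∃ x : ℕ → ℝ, x = fun n => if h : n < #s then f (s.equivFin.symm ⟨n, h⟩ : s)
      else 0 := ⟨_, rfl⟩
  have hN : 0 < #s := card_pos.2 hs
  have hN0 : (0 : ℝ) < #s := Nat.cast_pos.2 hN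
  have hsumC : ∀ F : ℝ → ℂ, ∑ n ∈ range #s, F (x n) = ∑ p ∈ s, F (f p) := fun F => by
    rw [← Fin.sum_univ_eq_sum_range (fun n => F (x n)), ← sum_coe_sort s (fun p => F (f p)),
      ← Equiv.sum_comp s.equivFin.symm]
    exact sum_congr rfl fun i _ => by simp [hx, i.2]
  have hcard : FA.Discrepancy.countIco x #s 0 d = #(s.filter fun p => Int.fract (f p) < d) := by
    have h := hsumC fun y => if Int.fract y < d then 1 else 0
    rw [sum_boole, sum_boole, Nat.cast_inj] at h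
    rw [← h, FA.Discrepancy.countIco]
    congr 1
    ext n
    simp [Int.fract_nonneg]
  have hET := FA.Discrepancy.erdos_turan (x := x) (N := #s) hN H le_rfl hd hd1
  rw [hcard, sub_zero] at hET
  have e : ∀ a : ℝ, a - d * #s = (a / #s - d) * #s := fun a => by field_simp
  rw [e, abs_mul, abs_of_pos hN0]
  refine (mul_le_mul_of_nonneg_right hET hN0.le).trans (le_of_eq ?_)
  rw [add_mul, mul_assoc (2 : ℝ), sum_mul]
  congr 1
  · ring
  congr 1
  refine sum_congr rfl fun h _ => ?_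
  rw [FA.Discrepancy.expMean, hsumC fun y => FA.ThreePrimes.eAdd ((h : ℝ) * y)]
  simp only [FA.ThreePrimes.eAdd]
  rw [div_right_comm, div_mul_cancel₀ _ hN0.ne']

end FA.PiatetskiShapiro
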