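import Fermat.Agent.PiatetskiShapiro.Hit
import Fermat.Agent.Root.SummaryPrimeNumberTheorem

/-!
# The prime number theorem of Piatetski-Shapiro

For `11/12 < γ < 1` the primes `p ≤ P` with `p = ⌊n ^ (1/γ)⌋` number `∼ P ^ γ / log P`: in a block
`(⌊s P⌋, P]` the interval for `{-p ^ γ}` has nearly constant length, and for `s → 1` the two
bounds that follow by induction over the blocks meet.
-/

set_option autoImplicit false

noncomputable section

namespace FA.PiatetskiShapiro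

open Finset Filter
open scoped Classical Topology Nat.Prime
open FA.Subconvexity (expI norm_sum_expI_neg)

/-- `P ^ γ / log P`. -/
def expected (γ : ℝ) (P : ℕ) : ℝ := (P : ℝ) ^ γ / Real.log P

theorem expected_nonneg (γ : ℝ) (P : ℕ) : 0 ≤ expected γ P :=
  div_nonneg (Real.rpow_nonneg (Nat.cast_nonneg P) γ) (Real.log_natCast_nonneg P)

theorem tendsto_expected {γ : ℝ} (hγ : 0 < γ) : Tendsto (expected γ) atTop atTop := by
  refine tendsto_atTop_mono' atTop ?_ ((tendsto_rpow_atTop (show 0 < γ / 2 by linarith)).comp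
    tendsto_natCast_atTop_atTop)
  filter_upwards [BombieriVinogradov.eventually_log_pow_le 1 (show 0 < γ / 2 by linarith),
    eventually_ge_atTop 2] with P h hP
  have h0 : (0 : ℝ) < P := Nat.cast_pos.2 (by omega)
  rw [pow_one] at h
  rw [Function.comp_apply, expected, le_div_iff₀ (Real.log_pos (Nat.one_lt_cast.2 (by omega)))]
  refine (mul_le_mul_of_nonneg_left h (by positivity)).trans (le_of_eq ?_)
  rw [← Real.rpow_add h0]
  ring_nf

/-- The left end of the block that ends at `P`. -/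
def blockStart (s : ℝ) (P : ℕ) : ℕ := ⌊s * P⌋₊

theorem blockStart_le {s : ℝ} (hs : s ≤ 1) (P : ℕ) : blockStart s P ≤ P := by
  rw [blockStart]
  exact (Nat.floor_mono (mul_le_of_le_one_left (Nat.cast_nonneg P) hs)).trans
    (Nat.floor_natCast P).le

theorem blockStart_lt {s : ℝ} (hs : s < 1) {P : ℕ} (hP : 0 < P) : blockStart s P < P := by
  refine (Nat.floor_lt' hP.ne').2 ?_
  exact mul_lt_of_lt_one_left (Nat.cast_pos.2 hP) hs

theorem tendsto_blockStart_div {s : ℝ} (hs : 0 ≤ s) :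
    Tendsto (fun P : ℕ => (blockStart s P : ℝ) / P) atTop (𝓝 s) :=
  (tendsto_nat_floor_mul_div_atTop hs).comp tendsto_natCast_atTop_atTop

theorem tendsto_blockStart {s : ℝ} (hs : 0 < s) : Tendsto (blockStart s) atTop atTop :=
  tendsto_nat_floor_atTop.comp (tendsto_natCast_atTop_atTop.const_mul_atTop hs)

theorem tendsto_log_div_log {g : ℕ → ℕ} {a : ℝ} (ha : a ≠ 0)
    (hg : Tendsto (fun P : ℕ => (g P : ℝ) / P) atTop (𝓝 a)) :
    Tendsto (fun P : ℕ => Real.log (g P) / Real.log P) atTop (𝓝 1) := by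
  have hlog : Tendsto (fun P : ℕ => Real.log P) atTop atTop :=
    Real.tendsto_log_atTop.comp tendsto_natCast_atTop_atTop
  have h := ((hg.log ha).div_atTop hlog).add_const (1 : ℝ)
  rw [zero_add] at h
  refine h.congr' ?_
  filter_upwards [hg.eventually_ne ha, eventually_ge_atTop 2] with P hne hP
  obtain ⟨hg0, hP0⟩ : (g P : ℝ) ≠ 0 ∧ (P : ℝ) ≠ 0 := div_ne_zero_iff.1 hne
  have hl : Real.log P ≠ 0 := (Real.log_pos (Nat.one_lt_cast.2 (by omega))).ne'
  rw [Real.log_div hg0 hP0]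
  field_simp
  ring

theorem tendsto_expected_blockStart {γ s : ℝ} (hs : 0 < s) :
    Tendsto (fun P => expected γ (blockStart s P) / expected γ P) atTop (𝓝 (s ^ γ)) := by
  have h := ((tendsto_blockStart_div hs.le).rpow_const (p := γ) (Or.inl hs.ne')).div
    (tendsto_log_div_log hs.ne' (tendsto_blockStart_div hs.le)) one_ne_zero
  rw [div_one] at h
  refine h.congr' ?_
  filter_upwards [eventually_ge_atTop 2] with P hP
  simp only [Pi.div_apply, expected]
  rw [Real.div_rpow (Nat.cast_nonneg _) (Nat.cast_nonneg _), div_div_div_eq, div_div_div_eq]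
  ring

/-- **The primes of a block.** -/
theorem tendsto_block_primes {s : ℝ} (hs : 0 < s) (hs1 : s ≤ 1) :
    Tendsto (fun P : ℕ => (#((Ioc (blockStart s P) P).filter Nat.Prime) : ℝ) * Real.log P / P)
      atTop (𝓝 (1 - s)) := by
  have hπ : Tendsto (fun P : ℕ => (π P : ℝ) * Real.log P / P) atTop (𝓝 1) := by
    simpa [Function.comp_def] using
      FA.PNT.Summary.prime_number_theorem.comp tendsto_natCast_atTop_atTop
  have h2 := ((hπ.comp (tendsto_blockStart hs)).mul (tendsto_blockStart_div hs.le)).div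
    (tendsto_log_div_log hs.ne' (tendsto_blockStart_div hs.le)) one_ne_zero
  rw [one_mul, div_one] at h2
  refine (hπ.sub h2).congr' ?_
  filter_upwards [(tendsto_blockStart hs).eventually_ge_atTop 2] with P hQ
  have h0 : (blockStart s P : ℝ) ≠ 0 := Nat.cast_ne_zero.2 (by omega)
  have hl : Real.log (blockStart s P) ≠ 0 := (Real.log_pos (Nat.one_lt_cast.2 (by omega))).ne'
  have hP : (P : ℝ) ≠ 0 := Nat.cast_ne_zero.2 (by have := blockStart_le hs1 P; omega)
  rw [← primeCounting_add_block (blockStart_le hs1 P)]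
  simp only [Pi.div_apply, Function.comp_apply]
  push_cast
  field_simp
  ring

/-- The sum of the error in the inequality of Erdős and Turán. -/
theorem sum_div_le_mul_log {F : ℕ → ℝ} {B : ℝ} {H : ℕ} (hB : 0 ≤ B) (hF : ∀ h ∈ Icc 1 H, F h ≤ B) :
    ∑ h ∈ Icc 1 H, F h / h ≤ B * (1 + Real.log H) := by
  refine (sum_le_sum (g := fun h : ℕ => B * ((h : ℝ))⁻¹) fun h hh => ?_).trans ?_
  · rw [div_eq_mul_inv]
    exact mul_le_mul_of_nonneg_right (hF h hh) (by positivity)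
  · rw [← mul_sum]
    refine mul_le_mul_of_nonneg_left ?_ hB
    have := harmonic_le_one_add_log H
    rw [harmonic_eq_sum_Icc] at this
    push_cast at this
    exact this

theorem norm_sum_exp_neg_rpow (γ : ℝ) (h : ℕ) (S : Finset ℕ) :
    ‖∑ p ∈ S, Complex.exp ((2 * Real.pi * (h * -((p : ℝ) ^ γ)) : ℝ) * Complex.I)‖ =
      ‖∑ p ∈ S, wave (2 * Real.pi * h) γ p‖ := by
  have e : ∀ p : ℕ, Complex.exp ((2 * Real.pi * (h * -((p : ℝ) ^ γ)) : ℝ) * Complex.I) =
      expI (-(2 * Real.pi * h * (p : ℝ) ^ γ)) := fun p => by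
    rw [FA.Subconvexity.expI]
    congr 2
    push_cast
    ring
  simp only [e]
  exact norm_sum_expI_neg S fun p => 2 * Real.pi * h * (p : ℝ) ^ γ

/-- **A block**, with the error of Erdős and Turán made small. -/
theorem eventually_block_error {γ s η : ℝ} (hγ : 11 / 12 < γ) (hγ1 : γ < 1) (hs : 1 / 2 < s)
    (hs1 : s < 1) (hη : 0 < η) :
    ∀ᶠ P : ℕ in atTop, ∀ d : ℝ, 0 ≤ d → d ≤ 1 →
      |(#(((Ioc (blockStart s P) P).filter Nat.Prime).filter fun p : ℕ =>
            Int.fract (-((p : ℝ) ^ γ)) < d) : ℝ) -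
          d * #((Ioc (blockStart s P) P).filter Nat.Prime)| ≤ η * expected γ P := by
  obtain ⟨ε, hεdef⟩ : ∃ ε, ε = (γ - 11 / 12) / 4 := ⟨_, rfl⟩
  have hε : 0 < ε := by linarith
  have hγ56 : 5 / 6 ≤ γ := by linarith
  obtain ⟨K, hKdef⟩ : ∃ K : ℝ, K = 800 / η + 1 := ⟨_, rfl⟩
  have hK : 1 ≤ K := by rw [hKdef]; linarith [div_pos (show (0 : ℝ) < 800 by norm_num) hη]
  have hq := tendsto_blockStart_div (show 0 ≤ s by linarith)
  have hQ := tendsto_blockStart (show 0 < s by linarith)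
  have hbig : ∀ᶠ P : ℕ in atTop, 2 * K ≤ (P : ℝ) ^ γ := ((tendsto_rpow_atTop
    (show 0 < γ by linarith)).comp tendsto_natCast_atTop_atTop).eventually_ge_atTop _
  have hmargin : ∀ᶠ P : ℕ in atTop, 336 / η ≤ (P : ℝ) ^ (γ - 11 / 12 - 2 * ε) := ((tendsto_rpow_atTop
    (show 0 < γ - 11 / 12 - 2 * ε by linarith)).comp tendsto_natCast_atTop_atTop).eventually_ge_atTop _
  have hQbig : ∀ᶠ P : ℕ in atTop, 8 * K ≤ (blockStart s P : ℝ) ^ ε := hQ.eventually
    (((tendsto_rpow_atTop hε).comp tendsto_natCast_atTop_atTop).eventually_ge_atTop _)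
  filter_upwards [hQ.eventually (eventually_norm_prime_wave_le hγ56 hγ1 hε),
    (tendsto_block_primes (by linarith) hs1.le).eventually (eventually_le_nhds (show 1 - s < 2 by linarith)),
    hq.eventually (eventually_gt_nhds hs), hbig, hmargin, hQbig,
    BombieriVinogradov.eventually_log_pow_le 2 hε, BombieriVinogradov.eventually_log_ge 1,
    hQ.eventually_ge_atTop 1] with P hwave hcard hhalf hP hmarg hQε hlog2 hlog1 hQ1
  intro d hd hd1
  obtain ⟨Q, hQdef⟩ : ∃ Q, Q = blockStart s P := ⟨_, rfl⟩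
  rw [← hQdef] at hwave hcard hhalf hQε hQ1 ⊢
  have hQP : Q ≤ P := hQdef ▸ blockStart_le hs1.le P
  have hP0 : (0 : ℝ) < P := Nat.cast_pos.2 (by omega)
  have hP1 : (1 : ℝ) ≤ P := Nat.one_le_cast.2 (by omega)
  have hQ0 : (0 : ℝ) < Q := Nat.cast_pos.2 (by omega)
  have hPQ : P ≤ 2 * Q := by
    rw [lt_div_iff₀ hP0] at hhalf
    exact_mod_cast (show (P : ℝ) ≤ 2 * (Q : ℝ) by linarith)
  obtain ⟨S, hS⟩ : ∃ S, S = (Ioc Q P).filter Nat.Prime := ⟨_, rfl⟩
  rw [← hS] at hcard ⊢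
  have hl0 : 0 < Real.log P := by linarith
  obtain ⟨H, hH⟩ : ∃ H, H = ⌈K * (P : ℝ) ^ (1 - γ)⌉₊ := ⟨_, rfl⟩
  have hP' : 1 ≤ (P : ℝ) ^ (1 - γ) := Real.one_le_rpow hP1 (by linarith)
  have hKP : 1 ≤ K * (P : ℝ) ^ (1 - γ) := one_le_mul_of_one_le_of_one_le hK hP'
  have hHlo : K * (P : ℝ) ^ (1 - γ) ≤ H := hH ▸ Nat.le_ceil _
  have hHhi : (H : ℝ) ≤ 2 * K * (P : ℝ) ^ (1 - γ) := by
    have := Nat.ceil_lt_add_one (show 0 ≤ K * (P : ℝ) ^ (1 - γ) by linarith)
    rw [← hH] at this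
    linarith
  have hHP : (H : ℝ) ≤ P := by
    refine hHhi.trans ((mul_le_mul_of_nonneg_right hP (by linarith)).trans (le_of_eq ?_))
    rw [← Real.rpow_add hP0]
    norm_num
  obtain ⟨Z, hZ⟩ : ∃ Z, Z = 21 * (P : ℝ) ^ (11 / 12 + ε) := ⟨_, rfl⟩
  have hwavele : ∀ h ∈ Icc 1 H,
      ‖∑ p ∈ S, Complex.exp ((2 * Real.pi * (h * -((p : ℝ) ^ γ)) : ℝ) * Complex.I)‖ ≤ Z := by
    intro h hh
    rw [mem_Icc] at hh
    rw [norm_sum_exp_neg_rpow, hS]
    have h1 : (1 : ℝ) ≤ h := Nat.one_le_cast.2 hh.1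
    have hπ2 : 2 * Real.pi ≤ 7 := by linarith [Real.pi_lt_d2]
    refine (hwave P (2 * Real.pi * h) hQP hPQ ?_ ?_).trans ?_
    · have := mul_le_mul_of_nonneg_left h1 Real.pi_pos.le
      linarith [Real.pi_gt_three]
    · have h2 : (P : ℝ) ^ (1 - γ) ≤ 4 * (Q : ℝ) ^ (1 - γ) := by
        refine (Real.rpow_le_rpow hP0.le (show (P : ℝ) ≤ 4 * Q by
          have : (P : ℝ) ≤ 2 * Q := by exact_mod_cast hPQ
          linarith) (by linarith)).trans ?_
        rw [Real.mul_rpow (by norm_num) hQ0.le]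
        exact mul_le_mul_of_nonneg_right ((Real.rpow_le_rpow_of_exponent_le (by norm_num)
          (show 1 - γ ≤ 1 by linarith)).trans_eq (Real.rpow_one _)) (by positivity)
      refine (mul_le_mul hπ2 ((Nat.cast_le.2 hh.2).trans hHhi) (Nat.cast_nonneg h) (by norm_num)).trans ?_
      rw [Real.rpow_add hQ0]
      refine mul_le_mul_of_nonneg_left ((mul_le_mul_of_nonneg_left h2 (by linarith)).trans ?_)
        (by norm_num)
      have h3 := mul_le_mul_of_nonneg_left hQε (Real.rpow_nonneg hQ0.le (1 - γ))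
      linarith
    · rw [hZ]
      exact mul_le_mul_of_nonneg_left (Real.rpow_le_rpow hQ0.le (Nat.cast_le.2 hQP) (by linarith))
        (by norm_num)
  refine (abs_card_fract_lt_sub_le S (fun p : ℕ => -((p : ℝ) ^ γ)) H hd hd1).trans ?_
  have hsum := sum_div_le_mul_log (B := Z) (H := H) (hZ ▸ by positivity) hwavele
  have hlogH : 1 + Real.log H ≤ 2 * Real.log P := by
    rcases Nat.eq_zero_or_pos H with h0 | h0
    · simp only [h0, Nat.cast_zero, Real.log_zero]
      linarith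
    · linarith [Real.log_le_log (Nat.cast_pos.2 h0) hHP]
  have hf : expected γ P = (P : ℝ) ^ γ / Real.log P := rfl
  have herr1 : 100 * (#S : ℝ) / ((H : ℝ) + 1) ≤ η / 4 * expected γ P := by
    refine (div_le_div₀ (by positivity) (mul_le_mul_of_nonneg_left (show (#S : ℝ) ≤ 2 * P / Real.log P by
      rw [le_div_iff₀ hl0]
      rwa [div_le_iff₀ hP0] at hcard) (by norm_num)) (lt_of_lt_of_le one_pos hKP)
      (show K * (P : ℝ) ^ (1 - γ) ≤ (H : ℝ) + 1 by linarith)).trans ?_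
    have hKη : 200 / K ≤ η / 4 := by
      rw [div_le_iff₀ (by linarith), hKdef, mul_add, mul_one]
      have : η / 4 * (800 / η) = 200 := by field_simp; norm_num
      linarith
    refine le_of_eq_of_le ?_ (mul_le_mul_of_nonneg_right hKη (expected_nonneg γ P))
    rw [hf, show (P : ℝ) ^ γ = (P : ℝ) / (P : ℝ) ^ (1 - γ) by
      rw [eq_div_iff (by linarith), ← Real.rpow_add hP0]; norm_num]
    field_simp
    ring
  have herr2 : 2 * (Z * (1 + Real.log H)) ≤ η / 4 * expected γ P := by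
    refine (mul_le_mul_of_nonneg_left (mul_le_mul_of_nonneg_left hlogH (hZ ▸ by positivity))
      two_pos.le).trans ?_
    rw [hf, mul_div_assoc', le_div_iff₀ hl0, hZ]
    have h1 : (P : ℝ) ^ γ = (P : ℝ) ^ (γ - 11 / 12 - 2 * ε) *
        ((P : ℝ) ^ (11 / 12 + ε) * (P : ℝ) ^ ε) := by
      rw [← Real.rpow_add hP0, ← Real.rpow_add hP0]
      ring_nf
    have h2 := mul_le_mul hmarg (mul_le_mul_of_nonneg_left hlog2 (Real.rpow_nonneg hP0.le (11 / 12 + ε)))
      (by positivity) (Real.rpow_nonneg hP0.le _)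
    rw [← h1] at h2
    have h3 := mul_le_mul_of_nonneg_left h2 (show 0 ≤ η / 4 by linarith)
    rw [← mul_assoc, show η / 4 * (336 / η) = 84 by field_simp; norm_num] at h3
    linarith
  have h0 : 0 ≤ η * expected γ P := mul_nonneg hη.le (expected_nonneg γ P)
  linarith

/-- **The values in a block.** -/
theorem eventually_block_hits {γ s η : ℝ} (hγ : 11 / 12 < γ) (hγ1 : γ < 1) (hs : 1 / 2 < s)
    (hs1 : s < 1) (hη : 0 < η) :
    ∀ᶠ P : ℕ in atTop,
      (hitCount γ (blockStart s P) : ℝ) + (γ * (1 - s) - η) * expected γ P ≤ hitCount γ P ∧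
        (hitCount γ P : ℝ) ≤
          hitCount γ (blockStart s P) + (γ * s ^ (γ - 1) * (1 - s) + η) * expected γ P := by
  have hS := tendsto_block_primes (show 0 < s by linarith) hs1.le
  have hlo : Tendsto (fun P : ℕ => γ * (((P : ℝ) + 1) / P) ^ (γ - 1) *
      ((#((Ioc (blockStart s P) P).filter Nat.Prime) : ℝ) * Real.log P / P)) atTop
        (𝓝 (γ * (1 - s))) := by
    have h1 : Tendsto (fun P : ℕ => ((P : ℝ) + 1) / P) atTop (𝓝 1) := by
      have h := (tendsto_one_div_atTop_nhds_zero_nat (𝕜 := ℝ)).const_add 1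
      rw [add_zero] at h
      refine h.congr' ?_
      filter_upwards [eventually_ge_atTop 1] with P hP
      have : (P : ℝ) ≠ 0 := Nat.cast_ne_zero.2 (by omega)
      field_simp
    have := ((h1.rpow_const (p := γ - 1) (Or.inl one_ne_zero)).const_mul γ).mul hS
    rwa [Real.one_rpow, mul_one] at this
  have hhi : Tendsto (fun P : ℕ => γ * ((blockStart s P : ℝ) / P) ^ (γ - 1) *
      ((#((Ioc (blockStart s P) P).filter Nat.Prime) : ℝ) * Real.log P / P)) atTop
        (𝓝 (γ * s ^ (γ - 1) * (1 - s))) :=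
    (((tendsto_blockStart_div (by linarith)).rpow_const (Or.inl (by linarith))).const_mul γ).mul hS
  filter_upwards [eventually_block_error hγ hγ1 hs hs1 (show 0 < η / 2 by linarith),
    hlo.eventually (eventually_ge_nhds (show γ * (1 - s) - η / 2 < γ * (1 - s) by linarith)),
    hhi.eventually (eventually_le_nhds
      (show γ * s ^ (γ - 1) * (1 - s) < γ * s ^ (γ - 1) * (1 - s) + η / 2 by linarith)),
    (tendsto_blockStart (show 0 < s by linarith)).eventually_ge_atTop 1,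
    eventually_ge_atTop 2] with P herr hlo hhi hQ1 hP2
  obtain ⟨Q, hQdef⟩ : ∃ Q, Q = blockStart s P := ⟨_, rfl⟩
  rw [← hQdef] at herr hlo hhi hQ1 ⊢
  have hQP : Q ≤ P := hQdef ▸ blockStart_le hs1.le P
  obtain ⟨S, hS⟩ : ∃ S, S = (Ioc Q P).filter Nat.Prime := ⟨_, rfl⟩
  rw [← hS] at herr hlo hhi
  rw [hitCount_add_block γ hQP, ← hS]
  push_cast
  have hP0 : (0 : ℝ) < P := Nat.cast_pos.2 (by omega)
  have hQ0 : (0 : ℝ) < Q := Nat.cast_pos.2 (by omega)
  have hl0 : 0 < Real.log P := Real.log_pos (Nat.one_lt_cast.2 (by omega))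
  have hγ0 : 0 < γ := by linarith
  have hlim : ∀ a : ℝ, γ * (a / P) ^ (γ - 1) * ((#S : ℝ) * Real.log P / P) * expected γ P =
      γ * (a / P) ^ (γ - 1) * (P : ℝ) ^ (γ - 1) * #S := fun a => by
    rw [expected, Real.rpow_sub_one hP0.ne' γ]
    field_simp
  have hone : ∀ a : ℝ, 1 ≤ a → 0 ≤ γ * a ^ (γ - 1) ∧ γ * a ^ (γ - 1) ≤ 1 := fun a ha =>
    ⟨mul_nonneg hγ0.le (Real.rpow_nonneg (by linarith) _), mul_le_one₀ hγ1.le
      (Real.rpow_nonneg (by linarith) _) (Real.rpow_le_one_of_one_le_of_nonpos ha (by linarith))⟩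
  have hmem : ∀ p ∈ S, (1 : ℝ) ≤ (Q : ℝ) ∧ (Q : ℝ) ≤ p ∧ (p : ℝ) + 1 ≤ (P : ℝ) + 1 := fun p hp => by
    rw [hS, mem_filter, mem_Ioc] at hp
    exact ⟨Nat.one_le_cast.2 hQ1, Nat.cast_le.2 hp.1.1.le,
      by linarith [show (p : ℝ) ≤ P from Nat.cast_le.2 hp.1.2]⟩
  constructor
  · obtain ⟨d, hd⟩ : ∃ d, d = γ * ((P : ℝ) + 1) ^ (γ - 1) := ⟨_, rfl⟩
    have h1 := (abs_le.1 (herr d (hd ▸ (hone _ (by linarith)).1) (hd ▸ (hone _ (by linarith)).2))).1
    have h2 : #(S.filter fun p : ℕ => Int.fract (-((p : ℝ) ^ γ)) < d) ≤ #(S.filter (Hit γ)) := by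
      refine card_le_card fun p hp => ?_
      rw [mem_filter] at hp ⊢
      obtain ⟨hQ1', hQp, hpP⟩ := hmem p hp.1
      refine ⟨hp.1, hp.2.trans_le (le_trans ?_ (rpow_sub_bounds hγ0 hγ1 (show (0 : ℝ) < p by linarith)
        (show (p : ℝ) ≤ p + 1 by linarith)).1)⟩
      rw [hd, add_sub_cancel_left, mul_one]
      exact mul_le_mul_of_nonneg_left
        (Real.rpow_le_rpow_of_nonpos (by linarith) hpP (by linarith)) hγ0.le
    have h3 := mul_le_mul_of_nonneg_right hlo (expected_nonneg γ P)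
    rw [hlim, Real.div_rpow (by linarith) hP0.le, ← mul_div_assoc,
      div_mul_cancel₀ _ (Real.rpow_pos_of_pos hP0 _).ne', ← hd] at h3
    have h2' : (#(S.filter fun p : ℕ => Int.fract (-((p : ℝ) ^ γ)) < d) : ℝ) ≤
      #(S.filter (Hit γ)) := Nat.cast_le.2 h2
    linarith
  · obtain ⟨d, hd⟩ : ∃ d, d = γ * (Q : ℝ) ^ (γ - 1) := ⟨_, rfl⟩
    have h1 := (abs_le.1 (herr d (hd ▸ (hone _ (Nat.one_le_cast.2 hQ1)).1)
      (hd ▸ (hone _ (Nat.one_le_cast.2 hQ1)).2))).2
    have h2 : #(S.filter (Hit γ)) ≤ #(S.filter fun p : ℕ => Int.fract (-((p : ℝ) ^ γ)) < d) := by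
      refine card_le_card fun p hp => ?_
      rw [mem_filter] at hp ⊢
      obtain ⟨hQ1', hQp, -⟩ := hmem p hp.1
      refine ⟨hp.1, (show Hit γ p from hp.2).trans_le ((rpow_sub_bounds hγ0 hγ1
        (show (0 : ℝ) < p by linarith) (show (p : ℝ) ≤ p + 1 by linarith)).2.trans ?_)⟩
      rw [hd, add_sub_cancel_left, mul_one]
      exact mul_le_mul_of_nonneg_left (Real.rpow_le_rpow_of_nonpos hQ0 hQp (by linarith)) hγ0.le
    have h3 := mul_le_mul_of_nonneg_right hhi (expected_nonneg γ P)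
    rw [hlim, Real.div_rpow hQ0.le hP0.le, ← mul_div_assoc,
      div_mul_cancel₀ _ (Real.rpow_pos_of_pos hP0 _).ne', ← hd] at h3
    have h2' : (#(S.filter (Hit γ)) : ℝ) ≤
      #(S.filter fun p : ℕ => Int.fract (-((p : ℝ) ^ γ)) < d) := Nat.cast_le.2 h2
    linarith

/-- **Induction over blocks**, from above. -/
theorem eventually_div_lt_of_step {A f : ℕ → ℝ} {g : ℕ → ℕ} {u q a : ℝ} (hu : 0 ≤ u) (hq : q < 1)
    (ha : u / (1 - q) < a) (hf0 : ∀ P, 0 ≤ f P) (hf : Tendsto f atTop atTop)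
    (hA : ∀ P : ℕ, A P ≤ P)
    (hstep : ∀ᶠ P in atTop, g P < P ∧ A P ≤ A (g P) + u * f P ∧ f (g P) ≤ q * f P) :
    ∀ᶠ P in atTop, A P / f P < a := by
  obtain ⟨P₀, hP₀⟩ := eventually_atTop.1 hstep
  obtain ⟨L, hL⟩ : ∃ L, L = u / (1 - q) := ⟨_, rfl⟩
  rw [← hL] at ha
  have hL0 : 0 ≤ L := hL ▸ div_nonneg hu (by linarith)
  have hLq : L * q + u = L := by
    have : (1 - q) ≠ 0 := by linarith
    rw [hL]
    field_simp
    ring
  have key : ∀ P, A P ≤ L * f P + P₀ := by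
    intro P
    induction P using Nat.strong_induction_on with
    | _ P ih =>
      rcases lt_or_ge P P₀ with hP | hP
      · exact (hA P).trans (le_add_of_nonneg_of_le (mul_nonneg hL0 (hf0 P)) (Nat.cast_le.2 hP.le))
      · obtain ⟨h1, h2, h3⟩ := hP₀ P hP
        have h4 := mul_le_mul_of_nonneg_left h3 hL0
        have h5 : L * (q * f P) + u * f P = L * f P := by rw [← mul_assoc, ← add_mul, hLq]
        linarith [ih _ h1]
  filter_upwards [hf.eventually_gt_atTop (max 0 ((P₀ : ℝ) / (a - L)))] with P hP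
  rw [div_lt_iff₀ ((le_max_left _ _).trans_lt hP)]
  have := (div_lt_iff₀ (by linarith)).1 ((le_max_right _ _).trans_lt hP)
  linarith [key P]

/-- **Induction over blocks**, from below. -/
theorem eventually_lt_div_of_step {A f : ℕ → ℝ} {g : ℕ → ℕ} {u q a : ℝ} (hu : 0 ≤ u) (hq : q < 1)
    (ha : a < u / (1 - q)) (hf0 : ∀ P, 0 ≤ f P) (hf : Tendsto f atTop atTop)
    (hA : ∀ P : ℕ, 0 ≤ A P)
    (hstep : ∀ᶠ P in atTop, g P < P ∧ A (g P) + u * f P ≤ A P ∧ q * f P ≤ f (g P)) :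
    ∀ᶠ P in atTop, a < A P / f P := by
  obtain ⟨P₀, hP₀⟩ := eventually_atTop.1 hstep
  obtain ⟨L, hL⟩ : ∃ L, L = u / (1 - q) := ⟨_, rfl⟩
  rw [← hL] at ha
  have hL0 : 0 ≤ L := hL ▸ div_nonneg hu (by linarith)
  have hLq : L * q + u = L := by
    have : (1 - q) ≠ 0 := by linarith
    rw [hL]
    field_simp
    ring
  obtain ⟨C, hC⟩ : ∃ C, C = L * ∑ P ∈ range P₀, f P := ⟨_, rfl⟩
  have key : ∀ P, L * f P - C ≤ A P := by
    intro P
    induction P using Nat.strong_induction_on with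
    | _ P ih =>
      rcases lt_or_ge P P₀ with hP | hP
      · have := mul_le_mul_of_nonneg_left
          (single_le_sum (fun i _ => hf0 i) (mem_range.2 hP)) hL0
        rw [← hC] at this
        linarith [hA P]
      · obtain ⟨h1, h2, h3⟩ := hP₀ P hP
        have h4 := mul_le_mul_of_nonneg_left h3 hL0
        have h5 : L * (q * f P) + u * f P = L * f P := by rw [← mul_assoc, ← add_mul, hLq]
        linarith [ih _ h1]
  filter_upwards [hf.eventually_gt_atTop (max 0 (C / (L - a)))] with P hP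
  rw [lt_div_iff₀ ((le_max_left _ _).trans_lt hP)]
  have := (div_lt_iff₀ (by linarith)).1 ((le_max_right _ _).trans_lt hP)
  linarith [key P]

/-- **The primes among the values, by primes.** -/
theorem tendsto_hitCount {γ : ℝ} (hγ : 11 / 12 < γ) (hγ1 : γ < 1) :
    Tendsto (fun P => (hitCount γ P : ℝ) / expected γ P) atTop (𝓝 1) := by
  have hγ0 : 0 < γ := by linarith
  have hpick : ∀ a : ℝ, ∀ e : ℝ, Tendsto (fun s : ℝ => s ^ e) (𝓝[<] 1) (𝓝 1) := fun _ e => by
    have h : ContinuousAt (fun s : ℝ => s ^ e) 1 := Real.continuousAt_rpow_const 1 e (Or.inl one_ne_zero)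
    simpa using h.tendsto.mono_left nhdsWithin_le_nhds
  have hbd : ∀ s : ℝ, 1 / 2 < s → s < 1 → s ^ γ < 1 ∧ γ * (1 - s) ≤ 1 - s ^ γ ∧
      1 - s ^ γ ≤ γ * s ^ (γ - 1) * (1 - s) := fun s hs hs1 => by
    refine ⟨Real.rpow_lt_one (by linarith) hs1 hγ0, ?_⟩
    simpa using rpow_sub_bounds hγ0 hγ1 (show 0 < s by linarith) hs1.le
  refine tendsto_order.2 ⟨fun a ha => ?_, fun a ha => ?_⟩
  · obtain ⟨s, ⟨hsa, hs⟩, hs1 : s < 1⟩ := ((((hpick a (1 - γ)).eventually (eventually_gt_nhds ha)).and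
      (eventually_nhdsWithin_of_eventually_nhds (eventually_gt_nhds (show (1 / 2 : ℝ) < 1 by norm_num)))).and
        self_mem_nhdsWithin).exists
    obtain ⟨hsγ, -, hb⟩ := hbd s hs hs1
    have hlim : a < γ * (1 - s) / (1 - s ^ γ) := by
      refine hsa.trans_le ?_
      rw [le_div_iff₀ (by linarith)]
      refine (mul_le_mul_of_nonneg_left hb (by positivity)).trans (le_of_eq ?_)
      rw [show (1 - γ : ℝ) = -(γ - 1) by ring, Real.rpow_neg (by linarith)]
      have : s ^ (γ - 1) ≠ 0 := (Real.rpow_pos_of_pos (by linarith) _).ne'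
      field_simp
    have hc : Tendsto (fun e : ℝ => (γ * (1 - s) - e) / (1 - (s ^ γ - e))) (𝓝 0)
        (𝓝 (γ * (1 - s) / (1 - s ^ γ))) := by
      have h : ContinuousAt (fun e : ℝ => (γ * (1 - s) - e) / (1 - (s ^ γ - e))) 0 :=
        ContinuousAt.div (by fun_prop) (by fun_prop) (by rw [sub_zero]; linarith)
      simpa using h.tendsto
    obtain ⟨e, ⟨he1, he2⟩, he : 0 < e⟩ := ((((hc.eventually (eventually_gt_nhds hlim)).and
      (eventually_lt_nhds (mul_pos hγ0 (sub_pos.2 hs1)))).filter_mono nhdsWithin_le_nhds).and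
        (self_mem_nhdsWithin (s := Set.Ioi (0 : ℝ)))).exists
    refine eventually_lt_div_of_step (g := blockStart s) (u := γ * (1 - s) - e) (q := s ^ γ - e)
      (by linarith) (by linarith) he1 (expected_nonneg γ) (tendsto_expected hγ0)
      (fun P => Nat.cast_nonneg _) ?_
    filter_upwards [eventually_block_hits hγ hγ1 hs hs1 he, eventually_ge_atTop 1,
      (tendsto_expected_blockStart (γ := γ) (show 0 < s by linarith)).eventually
        (eventually_ge_nhds (show s ^ γ - e < s ^ γ by linarith)),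
      (tendsto_expected hγ0).eventually_gt_atTop 0] with P h1 h2 h3 h4
    exact ⟨blockStart_lt hs1 h2, h1.1, (le_div_iff₀ h4).1 h3⟩
  · obtain ⟨s, ⟨hsa, hs⟩, hs1 : s < 1⟩ := ((((hpick a (γ - 1)).eventually (eventually_lt_nhds ha)).and
      (eventually_nhdsWithin_of_eventually_nhds (eventually_gt_nhds (show (1 / 2 : ℝ) < 1 by norm_num)))).and
        self_mem_nhdsWithin).exists
    obtain ⟨hsγ, hb, -⟩ := hbd s hs hs1
    have hlim : γ * s ^ (γ - 1) * (1 - s) / (1 - s ^ γ) < a := by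
      refine lt_of_le_of_lt ?_ hsa
      rw [div_le_iff₀ (by linarith), show γ * s ^ (γ - 1) * (1 - s) = s ^ (γ - 1) * (γ * (1 - s)) by ring]
      exact mul_le_mul_of_nonneg_left hb (Real.rpow_nonneg (by linarith) _)
    have hc : Tendsto (fun e : ℝ => (γ * s ^ (γ - 1) * (1 - s) + e) / (1 - (s ^ γ + e))) (𝓝 0)
        (𝓝 (γ * s ^ (γ - 1) * (1 - s) / (1 - s ^ γ))) := by
      have h : ContinuousAt (fun e : ℝ => (γ * s ^ (γ - 1) * (1 - s) + e) / (1 - (s ^ γ + e))) 0 :=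
        ContinuousAt.div (by fun_prop) (by fun_prop) (by rw [add_zero]; linarith)
      simpa using h.tendsto
    obtain ⟨e, ⟨he1, he2⟩, he : 0 < e⟩ := ((((hc.eventually (eventually_lt_nhds hlim)).and
      (eventually_lt_nhds (sub_pos.2 hsγ))).filter_mono nhdsWithin_le_nhds).and
        (self_mem_nhdsWithin (s := Set.Ioi (0 : ℝ)))).exists
    refine eventually_div_lt_of_step (g := blockStart s) (u := γ * s ^ (γ - 1) * (1 - s) + e)
      (q := s ^ γ + e) (add_nonneg (mul_nonneg (mul_nonneg hγ0.le (Real.rpow_nonneg (by linarith) _))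
        (by linarith)) he.le) (by linarith) he1 (expected_nonneg γ) (tendsto_expected hγ0)
      (fun P => Nat.cast_le.2 (hitCount_le γ P)) ?_
    filter_upwards [eventually_block_hits hγ hγ1 hs hs1 he, eventually_ge_atTop 1,
      (tendsto_expected_blockStart (γ := γ) (show 0 < s by linarith)).eventually
        (eventually_le_nhds (show s ^ γ < s ^ γ + e by linarith)),
      (tendsto_expected hγ0).eventually_gt_atTop 0] with P h1 h2 h3 h4
    exact ⟨blockStart_lt hs1 h2, h1.2, (div_le_iff₀ h4).1 h3⟩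

/-- **The prime number theorem of Piatetski-Shapiro.** -/
theorem tendsto_count_floor_rpow_prime {c : ℝ} (hc : 1 < c) (hc' : c < 12 / 11) :
    Tendsto (fun x : ℝ => (#((Icc 1 ⌊x⌋₊).filter fun n : ℕ => (⌊(n : ℝ) ^ c⌋₊).Prime) : ℝ) *
      (c * Real.log x) / x) atTop (𝓝 1) := by
  have hc0 : 0 < c := by linarith
  have hγ : 11 / 12 < c⁻¹ := by
    rw [lt_inv_comm₀ (by norm_num) hc0]
    linarith
  have hfl : Tendsto (fun x : ℝ => (⌊x⌋₊ : ℝ) / x) atTop (𝓝 1) := tendsto_nat_floor_div_atTop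
  have hN : Tendsto (fun x : ℝ => (⌊x⌋₊ : ℝ) ^ c) atTop atTop :=
    (tendsto_rpow_atTop hc0).comp (tendsto_natCast_atTop_atTop.comp tendsto_nat_floor_atTop)
  have hP := tendsto_nat_floor_atTop.comp hN
  have hratio : Tendsto (fun x : ℝ => (⌊(⌊x⌋₊ : ℝ) ^ c⌋₊ : ℝ) / x ^ c) atTop (𝓝 1) := by
    have h := (tendsto_nat_floor_div_atTop.comp hN).mul (hfl.rpow_const (p := c) (Or.inl one_ne_zero))
    rw [Real.one_rpow, mul_one] at h
    refine h.congr' ?_
    filter_upwards [eventually_ge_atTop 1] with x hx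
    have h0 : (⌊x⌋₊ : ℝ) ^ c ≠ 0 :=
      (Real.rpow_pos_of_pos (Nat.cast_pos.2 (Nat.floor_pos.2 hx)) c).ne'
    simp only [Function.comp_apply]
    rw [Real.div_rpow (Nat.cast_nonneg _) (by linarith), div_mul_div_cancel₀ h0]
  have hpow : Tendsto (fun x : ℝ => (⌊(⌊x⌋₊ : ℝ) ^ c⌋₊ : ℝ) ^ c⁻¹ / x) atTop (𝓝 1) := by
    have h := hratio.rpow_const (p := c⁻¹) (Or.inl one_ne_zero)
    rw [Real.one_rpow] at h
    refine h.congr' ?_
    filter_upwards [eventually_ge_atTop 0] with x hx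
    rw [Real.div_rpow (Nat.cast_nonneg _) (Real.rpow_nonneg hx c), Real.rpow_rpow_inv hx hc0.ne']
  have hlog : Tendsto (fun x : ℝ => c * Real.log x / Real.log (⌊(⌊x⌋₊ : ℝ) ^ c⌋₊ : ℕ)) atTop (𝓝 1) := by
    have hl : Tendsto (fun x : ℝ => c * Real.log x) atTop atTop :=
      Real.tendsto_log_atTop.const_mul_atTop hc0
    have h := ((hratio.log one_ne_zero).div_atTop hl).add_const (1 : ℝ)
    rw [zero_add] at h
    have h' := h.inv₀ one_ne_zero
    rw [inv_one] at h'
    refine h'.congr' ?_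
    filter_upwards [eventually_gt_atTop 1, hP.eventually_ge_atTop 1] with x hx hp
    have hp0 : (⌊(⌊x⌋₊ : ℝ) ^ c⌋₊ : ℝ) ≠ 0 :=
      Nat.cast_ne_zero.2 (Nat.one_le_iff_ne_zero.1 hp)
    have hx0 : c * Real.log x ≠ 0 := (mul_pos hc0 (Real.log_pos hx)).ne'
    rw [Real.log_div hp0 (Real.rpow_pos_of_pos (by linarith) c).ne', Real.log_rpow (by linarith),
      sub_div, div_self hx0, sub_add_cancel, inv_div]
  have h := (((tendsto_hitCount hγ (inv_lt_one_of_one_lt₀ hc)).comp hP).mul hpow).mul hlog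
  rw [mul_one, mul_one] at h
  refine h.congr' ?_
  filter_upwards [hP.eventually_ge_atTop 2] with x hp
  simp only [Function.comp_apply, expected] at hp ⊢
  rw [card_floor_rpow_prime hc.le]
  have hp0 : (0 : ℝ) < (⌊(⌊x⌋₊ : ℝ) ^ c⌋₊ : ℕ) := Nat.cast_pos.2 (by omega)
  have hl0 : 0 < Real.log (⌊(⌊x⌋₊ : ℝ) ^ c⌋₊ : ℕ) := Real.log_pos (Nat.one_lt_cast.2 (by omega))
  have := (Real.rpow_pos_of_pos hp0 c⁻¹).ne'
  field_simp

/-- **Infinitely many primes `⌊n ^ c⌋`.** -/
theorem infinite_floor_rpow_prime {c : ℝ} (hc : 1 < c) (hc' : c < 12 / 11) :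
    {n : ℕ | (⌊(n : ℝ) ^ c⌋₊).Prime}.Infinite := by
  intro hfin
  have hbd : ∀ x : ℝ, (#((Icc 1 ⌊x⌋₊).filter fun n : ℕ => (⌊(n : ℝ) ^ c⌋₊).Prime) : ℝ) ≤
      #hfin.toFinset := fun x => Nat.cast_le.2 (card_le_card fun n hn =>
    hfin.mem_toFinset.2 (mem_filter.1 hn).2)
  have h0 : Tendsto (fun x : ℝ => (#hfin.toFinset : ℝ) * c * (Real.log x / x)) atTop (𝓝 0) := by
    simpa using (Real.isLittleO_log_id_atTop.tendsto_div_nhds_zero).const_mul ((#hfin.toFinset : ℝ) * c)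
  have hle : (1 : ℝ) ≤ 0 := by
    refine le_of_tendsto_of_tendsto (tendsto_count_floor_rpow_prime hc hc') h0 ?_
    filter_upwards [eventually_ge_atTop 1] with x hx
    rw [mul_div_assoc', mul_assoc]
    exact div_le_div_of_nonneg_right (mul_le_mul_of_nonneg_right (hbd x)
      (mul_nonneg (by linarith) (Real.log_nonneg hx))) (by linarith)
  linarith

end FA.PiatetskiShapiro
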