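import Fermat.Agent.Subconvexity.SecondDerivative
import Fermat.Agent.ThreePrimes.Vaughan
import Mathlib.Analysis.SpecialFunctions.Pow.Deriv
import Mathlib.Analysis.Calculus.Deriv.MeanValue

/-!
# Sums with the phase `D n ^ γ`

The second derivative test gives `(b - a) √λ + 1 / √λ`, `λ = γ (1 - γ) |D| (5 Y) ^ (γ - 2)`, on
`[a, b) ⊆ [Y, 5 Y]`. With it: Abel summation and the bilinear rearrangement of `∑ (f * g) n e (n)`.
-/

set_option autoImplicit false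

noncomputable section

namespace FA.PiatetskiShapiro

open Finset
open FA.Subconvexity (expI norm_expI norm_vdc_second_le norm_sum_expI_neg)

theorem hasDerivAt_rpow_pos (r : ℝ) {x : ℝ} (hx : 0 < x) :
    HasDerivAt (fun y : ℝ => y ^ r) (r * x ^ (r - 1)) x :=
  Real.hasDerivAt_rpow_const (Or.inl hx.ne')

/-- `y ^ γ - x ^ γ` between the extreme derivatives. -/
theorem rpow_sub_bounds {γ x y : ℝ} (hγ0 : 0 < γ) (hγ1 : γ < 1) (hx : 0 < x) (hxy : x ≤ y) :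
    γ * y ^ (γ - 1) * (y - x) ≤ y ^ γ - x ^ γ ∧ y ^ γ - x ^ γ ≤ γ * x ^ (γ - 1) * (y - x) := by
  rcases hxy.eq_or_lt with rfl | hlt
  · simp
  obtain ⟨c, hc, hc'⟩ := exists_hasDerivAt_eq_slope (fun z : ℝ => z ^ γ) (fun z => γ * z ^ (γ - 1))
    hlt (ContinuousOn.rpow_const continuousOn_id fun z hz => Or.inl (by
      have := hz.1
      show z ≠ 0
      linarith))
    fun z hz => hasDerivAt_rpow_pos γ (lt_trans hx hz.1)
  have hc0 : 0 < c := lt_trans hx hc.1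
  have h1 : y ^ γ - x ^ γ = γ * c ^ (γ - 1) * (y - x) := by
    have h0 : y - x ≠ 0 := by linarith
    rw [hc', div_mul_cancel₀ _ h0]
  rw [h1]
  constructor
  · exact mul_le_mul_of_nonneg_right (mul_le_mul_of_nonneg_left
      (Real.rpow_le_rpow_of_nonpos hc0 hc.2.le (by linarith)) hγ0.le) (by linarith)
  · exact mul_le_mul_of_nonneg_right (mul_le_mul_of_nonneg_left
      (Real.rpow_le_rpow_of_nonpos hx hc.1.le (by linarith)) hγ0.le) (by linarith)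

/-- The second difference of `x ^ γ`. -/
theorem rpow_second_diff {γ x : ℝ} (hγ0 : 0 < γ) (hγ1 : γ < 1) (hx : 0 < x) :
    γ * (1 - γ) * (x + 2) ^ (γ - 2) ≤ -((x + 2) ^ γ - (x + 1) ^ γ - ((x + 1) ^ γ - x ^ γ)) ∧
      -((x + 2) ^ γ - (x + 1) ^ γ - ((x + 1) ^ γ - x ^ γ)) ≤ γ * (1 - γ) * x ^ (γ - 2) := by
  obtain ⟨G, hG⟩ : ∃ G : ℝ → ℝ, G = fun z => (z + 1) ^ γ - z ^ γ := ⟨_, rfl⟩
  have hGd : ∀ z : ℝ, 0 < z →
      HasDerivAt G (γ * (z + 1) ^ (γ - 1) - γ * z ^ (γ - 1)) z := fun z hz => by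
    rw [hG]
    exact ((hasDerivAt_rpow_pos γ (show 0 < z + 1 by linarith)).comp_add_const z 1).sub
      (hasDerivAt_rpow_pos γ hz)
  obtain ⟨c, hc, hc'⟩ := exists_hasDerivAt_eq_slope G _ (show x < x + 1 by linarith)
    (fun z hz => (hGd z (lt_of_lt_of_le hx hz.1)).continuousAt.continuousWithinAt)
    fun z hz => hGd z (lt_trans hx hz.1)
  have hc0 : 0 < c := lt_trans hx hc.1
  obtain ⟨d, hd, hd'⟩ := exists_hasDerivAt_eq_slope (fun z : ℝ => z ^ (γ - 1))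
    (fun z => (γ - 1) * z ^ (γ - 1 - 1)) (show c < c + 1 by linarith)
    (ContinuousOn.rpow_const continuousOn_id fun z hz => Or.inl (by
      have := hz.1
      show z ≠ 0
      linarith))
    fun z hz => hasDerivAt_rpow_pos (γ - 1) (lt_trans hc0 hz.1)
  rw [add_sub_cancel_left, div_one, show γ - 1 - 1 = γ - 2 by ring] at hd'
  rw [add_sub_cancel_left, div_one, hG] at hc'
  have e : -((x + 2) ^ γ - (x + 1) ^ γ - ((x + 1) ^ γ - x ^ γ)) = γ * (1 - γ) * d ^ (γ - 2) := by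
    dsimp only at hc'
    rw [show x + 1 + 1 = x + 2 by ring] at hc'
    linear_combination hc' + γ * hd'
  rw [e]
  have hd0 : 0 < d := lt_trans hc0 hd.1
  constructor
  · exact mul_le_mul_of_nonneg_left (Real.rpow_le_rpow_of_nonpos hd0
      (by linarith [hd.2, hc.2]) (by linarith)) (mul_nonneg hγ0.le (by linarith))
  · exact mul_le_mul_of_nonneg_left (Real.rpow_le_rpow_of_nonpos hx
      (by linarith [hd.1, hc.1]) (by linarith)) (mul_nonneg hγ0.le (by linarith))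

/-- **The test for the phase `D n ^ γ`.** -/
theorem norm_phase_sum_le {γ D Y : ℝ} (hγ0 : 0 < γ) (hγ1 : γ < 1) (hD : D ≠ 0) (hY : 0 < Y)
    {a b : ℕ} (ha : Y ≤ a) (hb : (b : ℝ) ≤ 5 * Y) :
    ‖∑ n ∈ Ico a b, expI (D * (n : ℝ) ^ γ)‖ ≤
      75 * ((b - a : ℕ) : ℝ) * √(γ * (1 - γ) * |D| * (5 * Y) ^ (γ - 2)) +
        26 / √(γ * (1 - γ) * |D| * (5 * Y) ^ (γ - 2)) := by
  obtain ⟨l, hl⟩ : ∃ l, l = γ * (1 - γ) * |D| * (5 * Y) ^ (γ - 2) := ⟨_, rfl⟩
  have hl0 : 0 < l :=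
    hl ▸ mul_pos (mul_pos (mul_pos hγ0 (by linarith)) (abs_pos.2 hD)) (by positivity)
  rw [← hl]
  have hkey : ‖∑ n ∈ Ico a b, expI (-|D| * (n : ℝ) ^ γ)‖ =
      ‖∑ n ∈ Ico a b, expI (D * (n : ℝ) ^ γ)‖ := by
    rcases le_total 0 D with h | h
    · rw [abs_of_nonneg h]
      simp only [neg_mul]
      exact norm_sum_expI_neg _ _
    · rw [abs_of_nonpos h, neg_neg]
  rw [← hkey]
  have h5 : (5 : ℝ) ^ (γ - 2) * 25 ≥ 1 := by
    have h1 : (5 : ℝ) ^ (-2 : ℝ) ≤ (5 : ℝ) ^ (γ - 2) :=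
      Real.rpow_le_rpow_of_exponent_le (by norm_num) (by linarith)
    rw [Real.rpow_neg (by norm_num), show (2 : ℝ) = ((2 : ℕ) : ℝ) by norm_num,
      Real.rpow_natCast] at h1
    norm_num at h1 ⊢
    linarith
  refine le_of_le_of_eq (norm_vdc_second_le hl0 (show (1 : ℝ) ≤ 25 by norm_num) fun n hn hnb => ?_)
    (by ring)
  have hn0 : 0 < (n : ℝ) := lt_of_lt_of_le hY (ha.trans (Nat.cast_le.2 hn))
  obtain ⟨h1, h2⟩ := rpow_second_diff hγ0 hγ1 hn0
  have h3 : (5 * Y) ^ (γ - 2) ≤ ((n : ℝ) + 2) ^ (γ - 2) := by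
    refine Real.rpow_le_rpow_of_nonpos (by linarith) (le_trans ?_ hb) (by linarith)
    exact_mod_cast (show n + 2 ≤ b by omega)
  have h4 : (n : ℝ) ^ (γ - 2) ≤ 25 * (5 * Y) ^ (γ - 2) := by
    refine (Real.rpow_le_rpow_of_nonpos hY (ha.trans (Nat.cast_le.2 hn)) (by linarith)).trans ?_
    rw [Real.mul_rpow (by norm_num) hY.le]
    have := mul_le_mul_of_nonneg_right h5 (Real.rpow_nonneg hY.le (γ - 2))
    linarith
  have hk : 0 ≤ γ * (1 - γ) := mul_nonneg hγ0.le (by linarith)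
  push_cast
  constructor
  · have := mul_le_mul_of_nonneg_left ((mul_le_mul_of_nonneg_left h3 hk).trans h1) (abs_nonneg D)
    rw [hl]
    linarith
  · have := mul_le_mul_of_nonneg_left (h2.trans (mul_le_mul_of_nonneg_left h4 hk)) (abs_nonneg D)
    rw [hl]
    linarith

/-- Abel summation against a monotone weight. -/
theorem norm_sum_monotone_mul_le {w : ℕ → ℝ} {z : ℕ → ℂ} {a : ℕ} :
    ∀ (b : ℕ) (W B : ℝ), a ≤ b → 0 ≤ W → 0 ≤ B → (∀ n ∈ Ioc a b, |w n| ≤ W) →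
      ((∀ n ∈ Ioc a b, n + 1 ≤ b → w n ≤ w (n + 1)) ∨
        (∀ n ∈ Ioc a b, n + 1 ≤ b → w (n + 1) ≤ w n)) →
      (∀ c, a ≤ c → c ≤ b → ‖∑ n ∈ Ioc a c, z n‖ ≤ B) →
      ‖∑ n ∈ Ioc a b, (w n : ℂ) * z n‖ ≤ 3 * W * B := by
  intro b W B hab hW hB hw hmono hz
  rcases hab.eq_or_lt with rfl | hlt
  · simp only [Ioc_self, sum_empty, norm_zero]
    positivity
  obtain ⟨Z, hZ⟩ : ∃ Z : ℕ → ℂ, Z = fun c => ∑ n ∈ Ioc a c, z n := ⟨_, rfl⟩
  have key : ∀ c, a + 1 ≤ c → ∑ n ∈ Ioc a c, (w n : ℂ) * z n =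
      (w c : ℂ) * Z c - ∑ n ∈ Ico (a + 1) c, ((w (n + 1) - w n : ℝ) : ℂ) * Z n := by
    intro c hc
    induction c, hc using Nat.le_induction with
    | base =>
      rw [hZ]
      simp [Nat.Ioc_succ_singleton]
    | succ c hc ih =>
      rw [sum_Ioc_succ_top (by omega), ih, sum_Ico_succ_top hc, hZ]
      simp only [sum_Ioc_succ_top (show a ≤ c by omega)]
      push_cast
      ring
  rw [key b hlt]
  refine (norm_sub_le _ _).trans ?_
  have h1 : ‖(w b : ℂ) * Z b‖ ≤ W * B := by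
    rw [norm_mul, Complex.norm_real, Real.norm_eq_abs]
    exact mul_le_mul (hw b (mem_Ioc.2 ⟨hlt, le_rfl⟩)) (hZ ▸ hz b hab le_rfl) (norm_nonneg _) hW
  have h2 : ‖∑ n ∈ Ico (a + 1) b, ((w (n + 1) - w n : ℝ) : ℂ) * Z n‖ ≤ 2 * W * B := by
    refine (norm_sum_le _ _).trans ((sum_le_sum (g := fun n => |w (n + 1) - w n| * B)
      fun n hn => ?_).trans ?_)
    · rw [mem_Ico] at hn
      rw [norm_mul, Complex.norm_real, Real.norm_eq_abs]
      exact mul_le_mul_of_nonneg_left (hZ ▸ hz n (by omega) (by omega)) (abs_nonneg _)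
    · rw [← sum_mul]
      refine mul_le_mul_of_nonneg_right ?_ hB
      have ha1 := abs_le.1 (hw (a + 1) (mem_Ioc.2 ⟨by omega, hlt⟩))
      have hb1 := abs_le.1 (hw b (mem_Ioc.2 ⟨hlt, le_rfl⟩))
      rcases hmono with h | h
      · rw [sum_congr rfl fun n hn => abs_of_nonneg (a := w (n + 1) - w n) (sub_nonneg.2
          (h n (by rw [mem_Ioc]; rw [mem_Ico] at hn; omega) (by rw [mem_Ico] at hn; omega))),
          sum_Ico_sub w hlt]
        linarith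
      · rw [sum_congr rfl fun n hn => abs_of_nonpos (a := w (n + 1) - w n) (sub_nonpos.2
          (h n (by rw [mem_Ioc]; rw [mem_Ico] at hn; omega) (by rw [mem_Ico] at hn; omega))),
          sum_neg_distrib, sum_Ico_sub w hlt]
        linarith
  linarith

/-- `∑ f s g l e (s l)` over `N < s l ≤ N'`. -/
def pairSum (φ : ℕ → ℂ) (N N' : ℕ) (f g : ℕ → ℝ) : ℂ :=
  ∑ s ∈ Ioc 0 N', ∑ l ∈ Ioc 0 N',
    if N < s * l ∧ s * l ≤ N' then (f s : ℂ) * (g l : ℂ) * φ (s * l) else 0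

theorem pairSum_comm (φ : ℕ → ℂ) (N N' : ℕ) (f g : ℕ → ℝ) :
    pairSum φ N N' f g = pairSum φ N N' g f := by
  rw [pairSum, pairSum, sum_comm]
  refine sum_congr rfl fun l _ => sum_congr rfl fun s _ => ?_
  simp only [mul_comm s l, mul_comm (f s : ℂ)]

theorem pairSum_congr {φ : ℕ → ℂ} {N N' : ℕ} {f g f' g' : ℕ → ℝ}
    (h : ∀ s l, N < s * l → s * l ≤ N' → f s * g l = f' s * g' l) :
    pairSum φ N N' f g = pairSum φ N N' f' g' := by
  refine sum_congr rfl fun s _ => sum_congr rfl fun l _ => ?_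
  split_ifs with hsl
  · rw [← Complex.ofReal_mul, h s l hsl.1 hsl.2, Complex.ofReal_mul]
  · rfl

theorem pairSum_add_right (φ : ℕ → ℂ) (N N' : ℕ) (f g g' : ℕ → ℝ) :
    pairSum φ N N' f (fun l => g l + g' l) = pairSum φ N N' f g + pairSum φ N N' f g' := by
  simp only [pairSum, ← sum_add_distrib]
  refine sum_congr rfl fun s _ => sum_congr rfl fun l _ => ?_
  split_ifs <;> push_cast <;> ring

theorem sum_convolution (φ : ℕ → ℂ) (N N' : ℕ) (f g : ArithmeticFunction ℝ) :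
    ∑ n ∈ Ioc N N', ((f * g) n : ℂ) * φ n = pairSum φ N N' f g := by
  trans ∑ x ∈ Ioc 0 N' ×ˢ Ioc 0 N' with (N < x.1 * x.2 ∧ x.1 * x.2 ≤ N'),
    (f x.1 : ℂ) * g x.2 * φ (x.1 * x.2)
  · trans ∑ n ∈ Ioc N N', ∑ x ∈ Ioc 0 N' ×ˢ Ioc 0 N' with x.1 * x.2 = n,
      (f x.1 : ℂ) * g x.2 * φ (x.1 * x.2)
    · refine sum_congr rfl fun n hn => ?_
      rw [mem_Ioc] at hn
      rw [ArithmeticFunction.mul_apply,
        Nat.divisorsAntidiagonal_eq_prod_filter_of_le (show n ≠ 0 by omega) hn.2,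
        Complex.ofReal_sum, sum_mul]
      refine sum_congr rfl fun x hx => ?_
      rw [(mem_filter.1 hx).2]
      push_cast
      rfl
    · simp_rw [sum_filter]
      rw [sum_comm]
      refine sum_congr rfl fun x _ => ?_
      rw [sum_ite_eq]
      simp only [mem_Ioc]
  · rw [sum_filter, sum_product, pairSum]

/-- The inner variable runs over an interval. -/
theorem pairSum_eq (φ : ℕ → ℂ) (N N' : ℕ) (f g : ℕ → ℝ) :
    pairSum φ N N' f g = ∑ s ∈ Ioc 0 N', (f s : ℂ) * ∑ l ∈ Ioc (N / s) (N' / s),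
      (g l : ℂ) * φ (s * l) := by
  refine sum_congr rfl fun s hs => ?_
  have hs0 : 0 < s := (mem_Ioc.1 hs).1
  rw [mul_sum, ← sum_filter]
  refine sum_congr ?_ fun l _ => by ring
  ext l
  simp only [mem_filter, mem_Ioc, Nat.div_lt_iff_lt_mul hs0, Nat.le_div_iff_mul_le hs0, mul_comm s l]
  constructor
  · exact fun h => ⟨h.2.1, h.2.2⟩
  · rintro ⟨h1, h2⟩
    have hl : 0 < l := Nat.pos_of_ne_zero fun h => by simp [h] at h1
    exact ⟨⟨hl, (Nat.le_mul_of_pos_right l hs0).trans h2⟩, h1, h2⟩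

end FA.PiatetskiShapiro
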